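import Fermat.Agent.IwasawaStructure.Stickelberger
import Fermat.Agent.ClassField94.PrimePowerLevels
import Fermat.Agent.DeuringCM.Primes
import Fermat.Agent.ArtinReciprocity.RayNorm

/-!
# Classes of `ℚ(ζ_p)` are norms in the tower

`exists_prod_actCl_eq_extended`: for `K = ℚ(ζ_p) ⊆ L = ℚ(ζ_(p^(n+1)))` the extension of every class
of `K` is the product of the conjugates over `K` of a class of `L`: every class contains a prime of
degree one with norm `1` modulo `p^(n+1)`, which splits completely.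
-/

set_option autoImplicit false
set_option linter.style.haveILetI false
set_option linter.unusedSectionVars false

noncomputable section

open NumberField IsDedekindDomain
open scoped Classical nonZeroDivisors Pointwise

namespace FA.IwasawaControl

open FA.CycloTower (actCl actCl_mk0)

variable {p : ℕ} [hp : Fact p.Prime]

/-- A number congruent to `1` modulo `p` times a `(p - 1)`-st power is `1` modulo `p ^ (n + 1)`. -/
theorem exists_pow_mul_modEq_one {q : ℕ} (hq : q ≡ 1 [MOD p]) (n : ℕ) :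
    ∃ t : ℕ, t.Coprime p ∧ t ^ (p - 1) * q ≡ 1 [MOD p ^ (n + 1)] := by
  have hcop : q.Coprime p := by
    have h := hq.gcd_eq
    simpa [Nat.Coprime] using h
  obtain ⟨j, hj⟩ : p - 1 ∣ p ^ n - 1 := Nat.sub_one_dvd_pow_sub_one p n
  refine ⟨q ^ j, hcop.pow_left j, ?_⟩
  rw [← pow_mul, mul_comm j, ← hj, ← pow_succ,
    Nat.sub_add_cancel (Nat.one_le_pow _ _ hp.out.pos)]
  have h : (p : ℤ) ∣ (q : ℤ) - 1 := by
    simpa using Nat.modEq_iff_dvd.1 hq.symm
  refine (Nat.modEq_iff_dvd.2 ?_).symm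
  push_cast
  simpa using dvd_sub_pow_of_dvd_sub h n

variable {n : ℕ} {K L : Type} [Field K] [NumberField K] [IsCyclotomicExtension {p} ℚ K]
  [Field L] [NumberField L] [IsCyclotomicExtension {p ^ (n + 1)} ℚ L] [Algebra K L]

omit [Algebra K L] in
/-- **A prime of degree one with norm `1` modulo `p ^ (n + 1)` in every class.** -/
theorem exists_prime_modEq (n : ℕ) (y : ClassGroup (𝓞 K)) :
    ∃ v : HeightOneSpectrum (𝓞 K), (Ideal.absNorm v.asIdeal).Prime ∧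
      Ideal.absNorm v.asIdeal ≡ 1 [MOD p ^ (n + 1)] ∧
      ClassGroup.mk0 (FA.Ext.primeIdeal v) = y := by
  haveI : NeZero p := ⟨hp.out.ne_zero⟩
  haveI : NeZero (p ^ (n + 1)) := ⟨pow_ne_zero _ hp.out.ne_zero⟩
  have hp0 : (p : 𝓞 K) ≠ 0 := Nat.cast_ne_zero.2 hp.out.ne_zero
  have hS : {v : HeightOneSpectrum (𝓞 K) | (p : 𝓞 K) ∈ v.asIdeal}.Finite :=
    (Ideal.finite_factors (I := Ideal.span {(p : 𝓞 K)}) (by simpa using hp.out.ne_zero)).subset
      fun v hv => Ideal.dvd_span_singleton.mpr hv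
  obtain ⟨v₀, hv₀S, hv₀, hv₀c⟩ : ∃ v : HeightOneSpectrum (𝓞 K), (p : 𝓞 K) ∉ v.asIdeal ∧
      (Ideal.absNorm v.asIdeal).Prime ∧ ClassGroup.mk0 (FA.Ext.primeIdeal v) = y := by
    obtain ⟨I, rfl⟩ := ClassGroup.mk0_surjective y
    have hI : I ∈ FA.Hecke.coprimeIdeals (⊤ : Ideal (𝓞 K)) := by
      show I.1 ⊔ ⊤ = ⊤
      exact sup_top_eq _
    obtain ⟨v, hv, hvS, hvp, hcl⟩ := FA.DeuringCM.exists_degree_one_class top_ne_bot
      (FA.Hecke.rayClass top_ne_bot ⟨I, hI⟩) hS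
    obtain ⟨x, z, hx, hz, hxz⟩ := (FA.Hecke.rayClass_eq_iff top_ne_bot).1 hcl
    exact ⟨v, hvS, hvp, ClassGroup.mk0_eq_mk0_iff.mpr ⟨x, z, hx.1, hz.1, hxz⟩⟩
  set q₀ := Ideal.absNorm v₀.asIdeal
  haveI : Fact q₀.Prime := ⟨hv₀⟩
  obtain ⟨π, hπ⟩ := FA.Ext.exists_residue_hom (K := K) (q := q₀) (v := v₀.asIdeal) rfl
  have hq₀ : q₀ ≡ 1 [MOD p] :=
    ((Nat.modEq_iff_dvd' hv₀.one_le).2 (FA.IwasawaStructure.dvd_sub_one hπ hv₀S).2).symm
  obtain ⟨t, ht, htq⟩ := exists_pow_mul_modEq_one hq₀ n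
  set M : ℕ := p ^ (n + 1)
  set 𝔪 : Ideal (𝓞 K) := Ideal.span {(M : 𝓞 K)}
  have h𝔪 : 𝔪 ≠ ⊥ := by simpa [𝔪] using (NeZero.ne M)
  have hnotp : ∀ P : Ideal (𝓞 K), P.IsPrime → (M : 𝓞 K) ∈ P → (p : 𝓞 K) ∈ P := fun P hP h => by
    rw [Nat.cast_pow] at h
    exact hP.mem_of_pow_mem _ h
  have ht0 : t ≠ 0 := fun h => by
    rw [h, Nat.coprime_zero_left] at ht
    exact hp.out.ne_one ht
  let J : (Ideal (𝓞 K))⁰ := ⟨Ideal.span {(t : 𝓞 K)} * v₀.asIdeal,
    mem_nonZeroDivisors_iff_ne_zero.mpr (mul_ne_zero (by simpa using ht0) v₀.ne_bot)⟩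
  have hJ : J ∈ FA.Hecke.coprimeIdeals 𝔪 := by
    show Ideal.span {(t : 𝓞 K)} * v₀.asIdeal ⊔ 𝔪 = ⊤
    by_contra hne
    obtain ⟨P, hP, hle⟩ := Ideal.exists_le_maximal _ hne
    have hM : (M : 𝓞 K) ∈ P := hle (Ideal.mem_sup_right (Ideal.mem_span_singleton_self _))
    rcases hP.isPrime.mul_le.1 (le_sup_left.trans hle) with h | h
    · rw [Ideal.span_singleton_le_iff_mem] at h
      have h1 := Nat.Coprime.cast (R := 𝓞 K) ht
      obtain ⟨a, b, hab⟩ := h1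
      exact hP.ne_top (P.eq_top_iff_one.2 (hab ▸
        P.add_mem (P.mul_mem_left a h) (P.mul_mem_left b (hnotp P hP.isPrime hM))))
    · exact hv₀S ((v₀.isMaximal.eq_of_le hP.ne_top h) ▸ hnotp P hP.isPrime hM)
  obtain ⟨v, hv, -, hvp, hcl⟩ := FA.DeuringCM.exists_degree_one_class h𝔪
    (FA.Hecke.rayClass h𝔪 ⟨J, hJ⟩) Set.finite_empty
  obtain ⟨x, z, hx, hz, hxz⟩ := (FA.Hecke.rayClass_eq_iff h𝔪).1 hcl
  refine ⟨v, hvp, ?_, ?_⟩
  · have h := congrArg (fun I : Ideal (𝓞 K) => ((Ideal.absNorm I : ℕ) : ZMod M)) hxz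
    simp only [map_mul, Nat.cast_mul, FA.ArtinRec.absNorm_of_ray M hx,
      FA.ArtinRec.absNorm_of_ray M hz, one_mul] at h
    have hNJ : Ideal.absNorm (J : Ideal (𝓞 K)) = t ^ (p - 1) * q₀ := by
      show Ideal.absNorm (Ideal.span {(t : 𝓞 K)} * v₀.asIdeal) = _
      rw [map_mul, Ideal.absNorm_span_singleton, ← map_natCast (algebraMap ℤ (𝓞 K)),
        Algebra.norm_algebraMap, Int.natAbs_pow, Int.natAbs_natCast, RingOfIntegers.rank,
        IsCyclotomicExtension.Rat.finrank p K, Nat.totient_prime hp.out]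
    rw [← ZMod.natCast_eq_natCast_iff]
    refine Eq.trans h ?_
    show ((Ideal.absNorm (J : Ideal (𝓞 K)) : ℕ) : ZMod M) = _
    rw [hNJ, ZMod.natCast_eq_natCast_iff]
    exact htq
  · rw [← hv₀c]
    refine ClassGroup.mk0_eq_mk0_iff.mpr ⟨x, z * (t : 𝓞 K), hx.1,
      mul_ne_zero hz.1 (by simpa using ht0), ?_⟩
    rw [← Ideal.span_singleton_mul_span_singleton, mul_assoc]
    exact hxz

/-- A prime of norm `q ≡ 1` modulo `p ^ (n + 1)` over a prime of norm `q` has degree one. -/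
theorem absNorm_eq_of_modEq {q : ℕ} (hq : q.Prime) (hq1 : q ≡ 1 [MOD p ^ (n + 1)])
    (P : HeightOneSpectrum (𝓞 L)) (hqP : (q : 𝓞 L) ∈ P.asIdeal) :
    Ideal.absNorm P.asIdeal = q := by
  haveI : NeZero (p ^ (n + 1)) := ⟨pow_ne_zero _ hp.out.ne_zero⟩
  haveI : Fact q.Prime := ⟨hq⟩
  haveI : IsCyclotomicExtension {p ^ (n + 1)} ℚ L := inferInstance
  have hζ := IsCyclotomicExtension.zeta_spec (p ^ (n + 1)) ℚ L
  haveI : CharP (𝓞 L ⧸ P.asIdeal) q := (CharP.charP_iff_prime_eq_zero hq).2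
    ((map_natCast (Ideal.Quotient.mk P.asIdeal) q).symm.trans
      (Ideal.Quotient.eq_zero_iff_mem.2 hqP))
  haveI : P.asIdeal.IsMaximal := P.isMaximal
  letI : Field (𝓞 L ⧸ P.asIdeal) := Ideal.Quotient.field P.asIdeal
  have hfix : ∀ x : 𝓞 L, Ideal.Quotient.mk P.asIdeal x ^ q = Ideal.Quotient.mk P.asIdeal x := by
    intro x
    have hx : x ∈ Algebra.adjoin ℤ {hζ.toInteger} := by
      rw [← hζ.integralPowerBasisOfPrimePow_gen, PowerBasis.adjoin_gen_eq_top]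
      trivial
    induction hx using Algebra.adjoin_induction with
    | mem y hy =>
      rw [Set.mem_singleton_iff.1 hy, ← map_pow,
        pow_eq_pow_of_modEq hq1 hζ.toInteger_isPrimitiveRoot.pow_eq_one, pow_one]
    | algebraMap r =>
      rw [eq_intCast, map_intCast]
      exact frobenius_def q (r : 𝓞 L ⧸ P.asIdeal) ▸ map_intCast (frobenius _ q) r
    | add a b _ _ ha hb => rw [map_add, add_pow_char, ha, hb]
    | mul a b _ _ ha hb => rw [map_mul, mul_pow, ha, hb]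
  haveI : Finite (𝓞 L ⧸ P.asIdeal) := Ideal.finiteQuotientOfFreeOfNeBot _ P.ne_bot
  letI : Fintype (𝓞 L ⧸ P.asIdeal) := Fintype.ofFinite _
  obtain ⟨f, hf, hcard⟩ := FiniteField.card (𝓞 L ⧸ P.asIdeal) q
  rw [Ideal.absNorm_apply, Submodule.cardQuot_apply, Nat.card_eq_fintype_card]
  refine le_antisymm ?_ (hcard ▸ Nat.le_self_pow f.ne_zero q)
  refine le_trans (le_of_eq Finset.card_univ.symm) (le_trans (Finset.card_le_card
    (t := (Polynomial.X ^ q - Polynomial.X : Polynomial (𝓞 L ⧸ P.asIdeal)).roots.toFinset)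
    fun z _ => ?_) ((Multiset.toFinset_card_le _).trans ?_))
  · obtain ⟨x, rfl⟩ := Ideal.Quotient.mk_surjective z
    rw [Multiset.mem_toFinset, Polynomial.mem_roots
      (FiniteField.X_pow_card_sub_X_ne_zero _ hq.one_lt)]
    simp [hfix x]
  · exact (Polynomial.card_roots' _).trans
      (le_of_eq (FiniteField.X_pow_card_sub_X_natDegree_eq _ hq.one_lt))

omit [Algebra K L] in
/-- Only the identity fixes a prime of degree one prime to `p`. -/
theorem eq_one_of_smul_prime {q : ℕ} [Fact q.Prime] {F : Type} [Field F] [NumberField F]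
    [Algebra F L] {Q : Ideal (𝓞 L)} {π : 𝓞 L →+* ZMod q} (hπ : ∀ x, π x = 0 ↔ x ∈ Q)
    (hQ : Q.IsPrime) (hQ0 : Q ≠ ⊥) (hQm : ((p ^ (n + 1) : ℕ) : 𝓞 L) ∉ Q) {g : L ≃ₐ[F] L}
    (hg : g • Q = Q) : g = 1 := by
  haveI : NeZero (p ^ (n + 1)) := ⟨pow_ne_zero _ hp.out.ne_zero⟩
  have hζ := IsCyclotomicExtension.zeta_spec (p ^ (n + 1)) ℚ L
  have hk : ∀ x : 𝓞 L, π (g • x) = π x := fun x => by
    set a := (π x).val with ha
    have hxa : x - (a : 𝓞 L) ∈ Q := by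
      rw [← hπ, map_sub, map_natCast, ha, ZMod.natCast_zmod_val, sub_self]
    have h1 : g • (x - (a : 𝓞 L)) ∈ Q := by
      have h2 := Ideal.smul_mem_pointwise_smul g _ _ hxa
      rwa [hg] at h2
    rw [← hπ, smul_sub, map_sub, sub_eq_zero] at h1
    rw [h1, show g • (a : 𝓞 L) = (a : 𝓞 L) from
      map_natCast (MulSemiringAction.toRingHom (L ≃ₐ[F] L) (𝓞 L) g) a, map_natCast, ha,
      ZMod.natCast_zmod_val]
  have hz := hζ.toInteger_isPrimitiveRoot.pow_eq_one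
  have hfix := FA.IwasawaStructure.eq_of_residue_eq (v := ⟨Q, hQ, hQ0⟩) hπ hQm
    (by rw [← smul_pow', hz, smul_one]) hz (hk hζ.toInteger)
  refine AlgEquiv.ext fun t => ?_
  have h2 : g.toRingEquiv.toRingHom.toRatAlgHom = AlgHom.id ℚ L :=
    (hζ.powerBasis ℚ).algHom_ext (by
      rw [IsPrimitiveRoot.powerBasis_gen]
      exact congrArg (fun t : 𝓞 L => (t : L)) hfix)
  exact DFunLike.congr_fun h2 t

/-- A prime of degree one over a prime of degree one, without stabiliser, splits it. -/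
theorem map_eq_prod_smul {F E : Type} [Field F] [NumberField F] [Field E] [NumberField E]
    [Algebra F E] [IsGalois F E] {v : Ideal (𝓞 F)} {Q : Ideal (𝓞 E)} (hQ : Q.IsPrime)
    (hQ0 : Q ≠ ⊥) (hle : v.map (algebraMap (𝓞 F) (𝓞 E)) ≤ Q)
    (hN : Ideal.absNorm Q = Ideal.absNorm v) (hinj : ∀ g : E ≃ₐ[F] E, g • Q = Q → g = 1) :
    v.map (algebraMap (𝓞 F) (𝓞 E)) = ∏ g : E ≃ₐ[F] E, g • Q := by
  have hne : ∀ g : E ≃ₐ[F] E, g • Q ≠ ⊥ := fun g h => hQ0 <| by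
    rw [← inv_smul_smul g Q, h, Ideal.smul_bot]
  have hinj' : Function.Injective fun g : E ≃ₐ[F] E => g • Q := fun g h hgh =>
    inv_mul_eq_one.1 (hinj _ (by
      rw [mul_smul, ← show g • Q = h • Q from hgh, inv_smul_smul]))
  refine (FA.Ext.eq_of_dvd_of_absNorm_eq ?_ (Finset.prod_ne_zero_iff.mpr fun g _ => hne g)
    ?_).symm
  · rw [← Finset.prod_image (f := fun I : Ideal (𝓞 E) => I) hinj'.injOn]
    refine Finset.prod_primes_dvd _ (fun I hI => ?_) fun I hI => ?_ <;>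
      obtain ⟨g, -, rfl⟩ := Finset.mem_image.mp hI
    · exact Ideal.prime_of_isPrime (hne g) inferInstance
    · refine Ideal.dvd_iff_le.mpr ?_
      rw [← FA.CycloTower.smul_map_algebraMap g v]
      exact Ideal.pointwise_smul_le_pointwise_smul_iff.mpr hle
  · rw [map_prod, Finset.prod_congr rfl fun g _ => show Ideal.absNorm (g • Q) = _ from
      ((Ideal.absNorm_apply _).trans ((Submodule.cardQuot_apply _).trans ((Nat.card_congr
        (Ideal.quotientEquiv Q (g • Q) (MulSemiringAction.toRingEquiv (E ≃ₐ[F] E) (𝓞 E) g)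
          rfl).toEquiv).symm.trans ((Submodule.cardQuot_apply _).symm.trans
            ((Ideal.absNorm_apply _).symm.trans hN))))),
      Finset.prod_const, Finset.card_univ, ← Nat.card_eq_fintype_card,
      IsGalois.card_aut_eq_finrank, Ideal.absNorm_algebraMap,
      ← IsFractionRing.finrank_eq (𝓞 F) F (𝓞 E) E]

/-- The classes of a split prime. -/
theorem extendedHom_eq_prod_actCl {F E : Type} [Field F] [NumberField F] [Field E] [NumberField E]
    [Algebra F E] (v : (Ideal (𝓞 F))⁰) (Q : (Ideal (𝓞 E))⁰)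
    (h : (v : Ideal (𝓞 F)).map (algebraMap (𝓞 F) (𝓞 E)) = ∏ g : E ≃ₐ[F] E, g • (Q : Ideal (𝓞 E))) :
    ClassGroup.extendedHom (𝓞 F) (𝓞 E) (ClassGroup.mk0 v) =
      ∏ g : E ≃ₐ[F] E, actCl g (ClassGroup.mk0 Q) := by
  have hne : ∀ g : E ≃ₐ[F] E, g • (Q : Ideal (𝓞 E)) ∈ (Ideal (𝓞 E))⁰ := fun g =>
    mem_nonZeroDivisors_iff_ne_zero.mpr fun h => nonZeroDivisors.coe_ne_zero Q (by
      rw [← inv_smul_smul g (Q : Ideal (𝓞 E)), h, Ideal.zero_eq_bot, Ideal.smul_bot])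
  rw [ClassGroup.extendedHom_mk0, Finset.prod_congr rfl fun g _ =>
    actCl_mk0 g Q ⟨g • (Q : Ideal (𝓞 E)), hne g⟩ rfl, ← map_prod]
  refine congrArg ClassGroup.mk0 (Subtype.ext ?_)
  rw [Submonoid.coe_finsetProd]
  exact h

variable (p n) in
include p n in
/-- **Classes are norms in the tower**: the extension of a class is the product of the
conjugates of a class. -/
theorem exists_prod_actCl_eq_extended (y : ClassGroup (𝓞 K)) :
    ∃ w : ClassGroup (𝓞 L),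
      ClassGroup.extendedHom (𝓞 K) (𝓞 L) y = ∏ g : L ≃ₐ[K] L, actCl g w := by
  haveI : IsGalois K L := FA.ClassField94.isGalois_tower (p := p) (n := n)
  obtain ⟨v, hv, hv1, rfl⟩ := exists_prime_modEq (p := p) n y
  set q := Ideal.absNorm v.asIdeal with hqdef
  haveI : Fact q.Prime := ⟨hv⟩
  obtain ⟨Q, hQ, hVQ⟩ := Ideal.exists_le_maximal (v.asIdeal.map (algebraMap (𝓞 K) (𝓞 L)))
    fun h => v.isPrime.ne_top
      (Ideal.map_injective_of_faithfullyFlat (B := 𝓞 L) (h.trans (Ideal.map_top _).symm))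
  have hqQ : (q : 𝓞 L) ∈ Q := by
    have h := hVQ (Ideal.mem_map_of_mem (algebraMap (𝓞 K) (𝓞 L)) (Ideal.absNorm_mem v.asIdeal))
    rwa [map_natCast] at h
  have hQ0 : Q ≠ ⊥ := fun h => hv.ne_zero (Nat.cast_eq_zero.1 (Submodule.mem_bot (𝓞 L) |>.1
    (h ▸ hqQ)))
  have hPN : Ideal.absNorm Q = q :=
    absNorm_eq_of_modEq hv hv1 ⟨Q, hQ.isPrime, hQ0⟩ hqQ
  obtain ⟨π, hπ⟩ := FA.Ext.exists_residue_hom (K := L) (q := q) (v := Q) hPN
  have hPm : ((p ^ (n + 1) : ℕ) : 𝓞 L) ∉ Q := fun h => by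
    obtain ⟨c, hc⟩ := (Nat.modEq_iff_dvd' hv.one_le).1 hv1.symm
    have h1 : ((q - 1 : ℕ) : 𝓞 L) ∈ Q := by rw [hc, Nat.cast_mul]; exact Q.mul_mem_right _ h
    rw [Nat.cast_sub hv.one_le, Nat.cast_one] at h1
    exact hQ.ne_top ((Q.eq_top_iff_one).2 (by simpa using Q.sub_mem hqQ h1))
  have hprod := map_eq_prod_smul hQ.isPrime hQ0 hVQ hPN
    fun g hg => eq_one_of_smul_prime hπ hQ.isPrime hQ0 hPm hg
  exact ⟨ClassGroup.mk0 ⟨Q, mem_nonZeroDivisors_iff_ne_zero.mpr hQ0⟩,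
    extendedHom_eq_prod_actCl (FA.Ext.primeIdeal v)
      ⟨Q, mem_nonZeroDivisors_iff_ne_zero.mpr hQ0⟩ hprod⟩

end FA.IwasawaControl
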