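import Fermat.Agent.IwasawaControl.Fixed
import Fermat.Agent.IwasawaControl.Splitting

/-!
# The control theorem for the odd weights

For odd `i` the group of `Gal(L/K)` acts on the weight `ω ^ i` part `A` of `L` with trivial Tate
cohomology: fixed classes are the extensions from `K` and are norms (`fixed_iff`,
`exists_norm_eq`), and the classes of trivial norm are the `σ z / z` (`norm_eq_one_iff`).
-/

set_option autoImplicit false
set_option linter.unusedSectionVars false
set_option linter.style.haveILetI false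

noncomputable section

open NumberField
open scoped Classical

namespace FA.IwasawaControl

open FA.CycloTower (actCl)
open FA.IwasawaStructure (expo)

/-- In a finite group, `ker N = range D` if `N D = 1` and `ker D = range N`. -/
theorem ker_eq_range_of_card {G : Type*} [CommGroup G] [Finite G] (D N : G →* G)
    (hND : ∀ x, N (D x) = 1) (hfix : D.ker = N.range) : N.ker = D.range := by
  have hle : D.range ≤ N.ker := fun x hx => by
    obtain ⟨z, rfl⟩ := hx
    exact hND z
  refine (Subgroup.eq_of_le_of_card_ge hle ?_).symm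
  · have h1 := Subgroup.card_eq_card_quotient_mul_card_subgroup D.ker
    have h2 := Subgroup.card_eq_card_quotient_mul_card_subgroup N.ker
    rw [Nat.card_congr (QuotientGroup.quotientKerEquivRange D).toEquiv, hfix] at h1
    rw [Nat.card_congr (QuotientGroup.quotientKerEquivRange N).toEquiv, h1,
      mul_comm (Nat.card N.range)] at h2
    exact (Nat.eq_of_mul_eq_mul_right Nat.card_pos h2).ge

variable {p : ℕ} [hp : Fact p.Prime]

section proj

variable {m : ℕ} [NeZero m] {F : Type} [Field F] [NumberField F] [IsCyclotomicExtension {m} ℚ F]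

/-- A map seeing a class as one of weight `ω ^ i` sees its projection as the class. -/
theorem map_wProj_of_eigen (hpm : p ∣ m) {G : Type*} [CommGroup G]
    (f : ClassGroup (𝓞 F) →* G) {i : ℕ} {x : ClassGroup (𝓞 F)} (hx : f x ^ p ^ pLvl p F = 1)
    (heig : ∀ σ : F ≃ₐ[ℚ] F, σ ^ (p - 1) = 1 →
      f (actCl σ x) = f x ^ (expo m σ) ^ (i * p ^ pLvl p F)) :
    f (wProj p m F i x) = f x := by
  set c := (exists_pExp p F).choose
  set M := p ^ (pLvl p F + 1)
  haveI : NeZero M := ⟨pow_ne_zero _ hp.out.ne_zero⟩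
  set s := ((((tame p F).card : ℕ) : ZMod M)⁻¹).val
  simp only [wProj, MonoidHom.coe_mk, OneHom.coe_mk, map_prod, map_pow]
  have key : ∀ σ ∈ tame p F, f (actCl σ x) ^ (c * s * (expo m σ⁻¹) ^ (i * p ^ pLvl p F)) =
      f x ^ (c * s) := fun σ hσ => by
    rw [heig σ (mem_tame.1 hσ), ← pow_mul, mul_left_comm, pow_mul, ← mul_pow]
    rw [pow_pow_congr (b := 1) (t := pLvl p F) (x := f x ^ (c * s))
      (by rw [← pow_mul, mul_comm, pow_mul, hx, one_pow]) ?_ i (by omega) (by omega),
      one_pow, pow_one]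
    rw [Nat.cast_mul, ← expo_mul_cast hpm, mul_inv_cancel, expo_one_cast hpm, Nat.cast_one]
  rw [Finset.prod_congr rfl key, Finset.prod_const, ← pow_mul]
  obtain ⟨hc, -⟩ := (exists_pExp p F).choose_spec
  conv_rhs => rw [← pow_one (f x)]
  refine pow_eq_pow_of_modEq ?_ hx
  refine Nat.ModEq.of_dvd (pow_dvd_pow p (Nat.le_succ _)) ?_
  rw [← ZMod.natCast_eq_natCast_iff] at hc ⊢
  rw [Nat.cast_mul, Nat.cast_mul, hc, Nat.cast_one, one_mul, ZMod.natCast_zmod_val, mul_comm,
    ZMod.coe_mul_inv_eq_one]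
  exact ((hp.out.coprime_iff_not_dvd.2 (not_dvd_card_tame m)).pow_left _).symm

end proj

variable {n : ℕ} {K L : Type} [Field K] [NumberField K] [IsCyclotomicExtension {p} ℚ K]
  [Field L] [NumberField L] [IsCyclotomicExtension {p ^ (n + 1)} ℚ L] [Algebra K L] {i : ℕ}

/-- An image of a `p`-power class is killed by the exponent of the source. -/
theorem map_pow_pLvl {G : Type*} [CommGroup G] (f : ClassGroup (𝓞 K) →* G) {y : ClassGroup (𝓞 K)}
    {j : ℕ} (h : f y ^ p ^ j = 1) : f y ^ p ^ pLvl p K = 1 := by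
  obtain ⟨q, hq⟩ : p ^ pLvl p K ∣ classNumber K := pow_padicValNat_dvd
  have hqp : ¬ p ∣ q := fun h => by
    have h1 : p ^ (pLvl p K + 1) ∣ classNumber K := by
      rw [hq, pow_succ]; exact mul_dvd_mul_left _ h
    rw [padicValNat_dvd_iff_le (classNumber_pos K).ne'] at h1
    simp only [pLvl] at h1
    omega
  have h1 : f y ^ (p ^ pLvl p K * q) = 1 := by
    rw [← hq, ← map_pow, classNumber, pow_card_eq_one, map_one]
  refine orderOf_dvd_iff_pow_eq_one.1 (Nat.Coprime.dvd_of_dvd_mul_right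
    (((hp.out.coprime_iff_not_dvd.2 hqp).pow_left j).coprime_dvd_left
      (orderOf_dvd_of_pow_eq_one h)) (orderOf_dvd_of_pow_eq_one h1))

variable (p n) in
include p n in
/-- **The fixed classes are the extended ones.** -/
theorem fixed_iff (hp2 : p ≠ 2) (hi : Odd i) {x : ClassGroup (𝓞 L)} :
    (x ∈ wPart p (p ^ (n + 1)) L i ∧ ∀ g : L ≃ₐ[K] L, actCl g x = x) ↔
      ∃ y ∈ wPart p p K i, ClassGroup.extendedHom (𝓞 K) (𝓞 L) y = x := by
  constructor
  · rintro ⟨hx, hfix⟩
    obtain ⟨y, rfl⟩ := mem_range_of_fixed_weight p n hp2 hi hx hfix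
    have hkill := map_pow_pLvl (p := p) _ hx.1
    refine ⟨wProj p p K i y, wProj_mem dvd_rfl i y, map_wProj_of_eigen dvd_rfl _ hkill
      fun σ₀ _ => ?_⟩
    obtain ⟨σ, hσ, hrest⟩ := exists_tame_lift p n (K := K) (L := L) σ₀
    obtain ⟨σ₀', hσ₀', hexp⟩ := exists_restrict p n (K := K) σ
    have he : σ₀' = σ₀ := AlgEquiv.ext fun z =>
      (algebraMap K L).injective ((hσ₀' z).symm.trans (hrest z))
    subst he
    rw [extendedHom_actCl hrest y, hx.2 σ hσ]
    rcases le_total (pLvl p K) (pLvl p L) with h | h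
    · exact pow_pow_congr hkill hexp.symm i (by omega) (by omega)
    · exact pow_pow_congr hx.1 hexp.symm i (by omega) (by omega)
  · rintro ⟨y, hy, rfl⟩
    refine ⟨extendedHom_mem_wPart n hy, fun g => ?_⟩
    rw [← actCl_restrictScalars, ← extendedHom_actCl (σ₀ := 1) (fun z => g.commutes z), map_one,
      MulAut.one_apply]

variable (p n) in
include p n in
/-- The norm of a class over `K` is fixed. -/
theorem actCl_prod (g : L ≃ₐ[K] L) (x : ClassGroup (𝓞 L)) :
    actCl g (∏ h : L ≃ₐ[K] L, actCl h x) = ∏ h : L ≃ₐ[K] L, actCl h x := by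
  rw [map_prod]
  exact Fintype.prod_equiv (Equiv.mulLeft g) _ _ fun h => by
    rw [Equiv.coe_mulLeft, map_mul, MulAut.mul_apply]

/-- The weight part is stable under the group over `K`. -/
theorem actCl_mem_wPart_over (g : L ≃ₐ[K] L) {x : ClassGroup (𝓞 L)}
    (hx : x ∈ wPart p (p ^ (n + 1)) L i) : actCl g x ∈ wPart p (p ^ (n + 1)) L i := by
  rw [← actCl_restrictScalars]
  exact actCl_mem_wPart _ hx

variable (p n) in
include p n in
/-- **The extended classes are norms.** -/
theorem exists_norm_eq {y : ClassGroup (𝓞 K)} (hy : y ∈ wPart p p K i) :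
    ∃ w ∈ wPart p (p ^ (n + 1)) L i,
      ∏ g : L ≃ₐ[K] L, actCl g w = ClassGroup.extendedHom (𝓞 K) (𝓞 L) y := by
  obtain ⟨w, hw⟩ := exists_prod_actCl_eq_extended p n (L := L) y
  refine ⟨wProj p (p ^ (n + 1)) L i w, wProj_mem dvd_level i w, ?_⟩
  rw [← wProj_of_mem dvd_level (extendedHom_mem_wPart n hy), hw, map_prod]
  exact Finset.prod_congr rfl fun g _ => by
    rw [← actCl_restrictScalars, ← wProj_actCl, actCl_restrictScalars]

variable (p n) in
include p n in
/-- **The classes of trivial norm.** -/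
theorem norm_eq_one_iff (hp2 : p ≠ 2) (hi : Odd i) {σ : L ≃ₐ[K] L}
    (hσ : ∀ g, g ∈ Subgroup.zpowers σ) {x : ClassGroup (𝓞 L)}
    (hx : x ∈ wPart p (p ^ (n + 1)) L i) :
    ∏ g : L ≃ₐ[K] L, actCl g x = 1 ↔
      ∃ z ∈ wPart p (p ^ (n + 1)) L i, actCl σ z / z = x := by
  set A := wPart p (p ^ (n + 1)) L i
  let D : A →* A :=
    { toFun := fun z => ⟨actCl σ z.1 / z.1, A.div_mem (actCl_mem_wPart_over σ z.2) z.2⟩
      map_one' := Subtype.ext (by simp)
      map_mul' := fun a b => Subtype.ext (by simp [map_mul, mul_div_mul_comm]) }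
  let N : A →* A :=
    { toFun := fun z => ⟨∏ g : L ≃ₐ[K] L, actCl g z.1,
        A.prod_mem fun g _ => actCl_mem_wPart_over g z.2⟩
      map_one' := Subtype.ext (by simp)
      map_mul' := fun a b => Subtype.ext (by simp [map_mul, Finset.prod_mul_distrib]) }
  have hND : ∀ z, N (D z) = 1 := fun z => Subtype.ext (by
    show ∏ g : L ≃ₐ[K] L, actCl g (actCl σ z.1 / z.1) = 1
    simp only [map_div, Finset.prod_div_distrib, div_eq_one]
    exact Fintype.prod_equiv (Equiv.mulRight σ) _ _ fun h => by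
      rw [Equiv.coe_mulRight, map_mul, MulAut.mul_apply])
  have hfix : D.ker = N.range := by
    refine le_antisymm (fun z hz => ?_) ?_
    · have hz' : actCl σ z.1 = z.1 := div_eq_one.1 (congrArg Subtype.val hz)
      have hall : ∀ g : L ≃ₐ[K] L, actCl g z.1 = z.1 := fun g => by
        obtain ⟨j, rfl⟩ := mem_powers_iff_mem_zpowers.mpr (hσ g)
        show actCl (σ ^ j) z.1 = z.1
        induction j with
        | zero => rw [pow_zero, map_one]; rfl
        | succ j ih => rw [pow_succ, map_mul, MulAut.mul_apply, hz', ih]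
      obtain ⟨y, hy, hyz⟩ := (fixed_iff p n hp2 hi).1 ⟨z.2, hall⟩
      obtain ⟨w, hw, hwN⟩ := exists_norm_eq p n (L := L) hy
      exact ⟨⟨w, hw⟩, Subtype.ext (hwN.trans hyz)⟩
    · rintro _ ⟨w, rfl⟩
      exact Subtype.ext (div_eq_one.2 (actCl_prod p n σ w.1))
  have hker := ker_eq_range_of_card D N hND hfix
  constructor
  · intro h
    obtain ⟨z, hz⟩ := (hker ▸ (show (⟨x, hx⟩ : A) ∈ N.ker from Subtype.ext h) :
      (⟨x, hx⟩ : A) ∈ D.range)
    exact ⟨z.1, z.2, congrArg Subtype.val hz⟩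
  · rintro ⟨z, hz, rfl⟩
    exact congrArg Subtype.val (hND ⟨z, hz⟩)

variable (K) in
/-- **The order of the base part.** -/
theorem card_wPart_base (hp5 : 5 ≤ p) (hi : Odd i) (hi3 : 3 ≤ i) (hip : i + 2 ≤ p) :
    Nat.card (wPart p p K i) = p ^ FA.GaussKolyvagin.bexp p i := by
  set v := FA.GaussKolyvagin.bexp p i
  set k := pLvl p K + v + 1
  rw [← FA.GaussKolyvagin.card_eigen K hp5 hi hi3 hip (k := k) (by omega)]
  refine Nat.card_congr (Equiv.subtypeEquivRight fun x => ?_)
  rw [mem_wPart_iff (N := k) (by omega)]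
  refine and_congr_right fun _ => ?_
  have hexpo : ∀ d : (ZMod p)ˣ, expo p (FA.Ext.sigmaK p K d) = (d : ZMod p).val := fun d => by
    show (((IsCyclotomicExtension.Rat.galEquivZMod p K)
      ((IsCyclotomicExtension.Rat.galEquivZMod p K).symm d) : (ZMod p)ˣ) : ZMod p).val = _
    rw [MulEquiv.apply_symm_apply]
  have hact : ∀ d, actCl (FA.Ext.sigmaK p K d) x = FA.Ext.sigmaCl p K d x := fun d => by
    rw [← FA.IwasawaStructure.classAut_eq_actCl]
    rfl
  constructor
  · intro h d
    have hd : FA.Ext.sigmaK p K d ^ (p - 1) = 1 := by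
      rw [← map_pow, ← ZMod.card_units p, pow_card_eq_one, map_one]
    rw [← hact, h _ hd, hexpo]
  · intro h σ _
    obtain ⟨d, rfl⟩ := (IsCyclotomicExtension.Rat.galEquivZMod p K).symm.surjective σ
    show actCl (FA.Ext.sigmaK p K d) x = x ^ expo p (FA.Ext.sigmaK p K d) ^ (i * p ^ k)
    rw [hact, h, hexpo]

end FA.IwasawaControl
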