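import Fermat.Agent.GaussKolyvagin.Valuation
import Fermat.Agent.IwasawaMinus.Branch

/-!
# The branch of an odd weight

For the residue `u = g ^ (-i)` the system has constant term of valuation `bexp p i` at every level
(`exists_unit_coeff_zero_sys`) and, with `ω_n`, generates an ideal containing a power of `p`
(`exists_pow_mem_span_sys`).
-/

set_option autoImplicit false
set_option linter.unusedSectionVars false
set_option linter.style.haveILetI false

noncomputable section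

open Polynomial
open scoped Classical

namespace FA.IwasawaControl

open FA.IwasawaMinus (IsGen sys oddU omega ev theta emb Compatible sys_compatible ev_eq_of_dvd
  norm_bval_base norm_bval_level den poleU eq_poleU_iff bval bval_ne_zero oddRoots levelRoots
  mem_oddRoots norm_emb)
open FA.GaussKolyvagin (bexp bsum norm_bsum exists_gen_unit stickSum_theta odd_mem_oddU)

variable {p : ℕ} [hp : Fact p.Prime] {g : ℕ}

/-- The residue of the branch of weight `ω ^ i`. -/
theorem exists_branch_residue (hp5 : 5 ≤ p) (hg : IsGen p g) {i : ℕ} (hip : i + 2 ≤ p) :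
    ∃ u : (ZMod p)ˣ, (g : ZMod p) ^ i * u = 1 := by
  obtain ⟨γ, hγ, hord⟩ := exists_gen_unit hp5 hg
  exact ⟨γ⁻¹ ^ i, by rw [← hγ, ← Units.val_pow_eq_pow_val, ← Units.val_mul, ← mul_pow,
    mul_inv_cancel, one_pow, Units.val_one]⟩

theorem branch_residue_spec (hp5 : 5 ≤ p) (hg : IsGen p g) {i : ℕ} (hi : Odd i) (hi3 : 3 ≤ i)
    (hip : i + 2 ≤ p) {u : (ZMod p)ˣ} (hu : (g : ZMod p) ^ i * u = 1) :
    u ∈ oddU p ∧ u ≠ poleU hg ∧ ‖(sys hg u 0).coeff 0‖ = (p : ℝ)⁻¹ ^ bexp p i := by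
  obtain ⟨γ, hγ, hord⟩ := exists_gen_unit hp5 hg
  have hu' : u = γ ^ (p - 1 - i) := by
    refine mul_left_cancel (a := γ ^ i) (Units.ext ?_)
    rw [Units.val_mul, Units.val_pow_eq_pow_val, hγ, hu, ← pow_add,
      show i + (p - 1 - i) = p - 1 by omega, ← hord, pow_orderOf_eq_one, Units.val_one]
  have hodd : u ∈ oddU p := by
    rw [hu', odd_mem_oddU hp5 hord, Nat.odd_iff]
    have := Nat.odd_iff.1 hi
    have := hp.out.eq_two_or_odd
    omega
  have hpole : u ≠ poleU hg := fun h => by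
    rw [eq_poleU_iff] at h
    have h1 : γ ^ (p - 1 - i + 1) = 1 := by
      rw [pow_succ', ← hu']
      exact Units.ext (by rw [Units.val_mul, hγ, Units.val_one]; exact h)
    have := Nat.le_of_dvd (by omega) (hord ▸ orderOf_dvd_of_pow_eq_one h1)
    omega
  refine ⟨hodd, hpole, ?_⟩
  rw [← norm_bval_base (by omega) hg hodd, den, if_neg hpole, mul_one, bval, hu',
    stickSum_theta hg hγ, norm_div, norm_neg, norm_emb, norm_mul]
  have h2 : ‖(2 : PadicAlgCl p)‖ = 1 := by
    simpa using FA.IwasawaMinus.norm_natCast_of_not_dvd (p := p) (k := 2) fun h => by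
      have := (Nat.prime_dvd_prime_iff_eq hp.out Nat.prime_two).1 h
      omega
  rw [h2, one_mul, zero_add, pow_one, FA.IwasawaMinus.norm_p, norm_bsum hp5 hi hi3 hip, pow_succ,
    mul_div_assoc, div_self (inv_ne_zero (Nat.cast_ne_zero.2 hp.out.ne_zero)), mul_one]

/-- The constant term does not depend on the level. -/
theorem coeff_zero_sys (hg : IsGen p g) (u : (ZMod p)ˣ) (n : ℕ) :
    (sys hg u n).coeff 0 = (sys hg u 0).coeff 0 := by
  obtain ⟨q, hq⟩ := (sys_compatible hg u).dvd_sub (Nat.zero_le n)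
  have h := congrArg (fun P : ℤ_[p][X] => P.coeff 0) hq
  simpa [omega, sub_eq_zero] using h

/-- **The constant term.** -/
theorem exists_unit_coeff_zero_sys (hp5 : 5 ≤ p) (hg : IsGen p g) {i : ℕ} (hi : Odd i)
    (hi3 : 3 ≤ i) (hip : i + 2 ≤ p) {u : (ZMod p)ˣ} (hu : (g : ZMod p) ^ i * u = 1) (n : ℕ) :
    ∃ w : ℤ_[p]ˣ, (sys hg u n).coeff 0 = (p : ℤ_[p]) ^ bexp p i * w := by
  rw [coeff_zero_sys]
  have hn := (branch_residue_spec hp5 hg hi hi3 hip hu).2.2
  set a := (sys hg u 0).coeff 0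
  have ha : a ≠ 0 := fun h => by
    rw [h, norm_zero] at hn
    exact (pow_ne_zero _ (inv_ne_zero (Nat.cast_ne_zero.2 hp.out.ne_zero))) hn.symm
  have hv : a.valuation = bexp p i := by
    rw [PadicInt.norm_eq_zpow_neg_valuation ha, zpow_neg, zpow_natCast, inv_pow, inv_inj] at hn
    exact Nat.pow_right_injective hp.out.two_le (by exact_mod_cast hn)
  exact ⟨PadicInt.unitCoeff ha, by rw [← hv, mul_comm]; exact PadicInt.unitCoeff_spec ha⟩

/-- The branch does not vanish at the points `ζ - 1`. -/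
theorem ev_sys_ne_zero (hp5 : 5 ≤ p) (hg : IsGen p g) {i : ℕ} (hi : Odd i) (hi3 : 3 ≤ i)
    (hip : i + 2 ≤ p) {u : (ZMod p)ˣ} (hu : (g : ZMod p) ^ i * u = 1) {n : ℕ} {ζ : PadicAlgCl p}
    (hζ : ζ ^ p ^ n = 1) : ev (ζ - 1) (sys hg u n) ≠ 0 := by
  obtain ⟨hodd, hpole, -⟩ := branch_residue_spec hp5 hg hi hi3 hip hu
  obtain ⟨s, hsn, hs⟩ := (Nat.dvd_prime_pow hp.out).1 (orderOf_dvd_of_pow_eq_one hζ)
  have hprim : IsPrimitiveRoot ζ (p ^ s) := hs ▸ IsPrimitiveRoot.orderOf ζ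
  rw [ev_eq_of_dvd (by rw [add_sub_cancel]; exact hprim.pow_eq_one)
    ((sys_compatible hg u).dvd_sub hsn)]
  rcases s with _ | s
  · have hζ1 : ζ = 1 := by simpa using hprim.pow_eq_one
    rw [hζ1, sub_self, show ev (0 : PadicAlgCl p) (sys hg u 0) = emb ((sys hg u 0).coeff 0) from
      eval₂_at_zero .., ← norm_ne_zero_iff, norm_emb,
      (branch_residue_spec hp5 hg hi hi3 hip hu).2.2]
    exact pow_ne_zero _ (inv_ne_zero (Nat.cast_ne_zero.2 hp.out.ne_zero))
  · intro h0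
    have h := norm_bval_level (by omega) hg hodd hprim
    rw [h0, norm_zero, den, if_neg hpole, mul_one] at h
    refine bval_ne_zero (by omega) hg ?_ (norm_eq_zero.mp h)
    refine Finset.mem_filter.mpr ⟨mem_oddRoots.mpr ⟨?_, ?_⟩, ?_⟩
    · rw [mul_pow, pow_mul (theta u), FA.IwasawaMinus.theta_pow_card, one_pow, one_mul,
        mul_comm (p - 1), pow_mul, hprim.pow_eq_one, one_pow]
    · rw [Nat.mul_div_right_comm ((hp.out.odd_of_ne_two (by omega)).tsub_odd odd_one).two_dvd,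
        mul_pow, pow_mul (theta u), (FA.IwasawaMinus.theta_pow_half (by omega) u).mpr
          (Finset.mem_filter.mp hodd).2, (hp.out.odd_of_ne_two (by omega)).pow.neg_one_pow,
        mul_comm ((p - 1) / 2), pow_mul, hprim.pow_eq_one, one_pow, mul_one]
    · rw [mul_pow, pow_mul (theta u), FA.IwasawaMinus.theta_pow_card, one_pow, one_mul]
      intro h1
      have h2 := hprim.dvd_of_pow_eq_one _ h1
      rw [pow_succ, mul_comm (p - 1), Nat.mul_dvd_mul_iff_left (pow_pos hp.out.pos _)] at h2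
      have := Nat.le_of_dvd (by omega) h2
      omega

/-- Denominators of a polynomial. -/
theorem exists_pow_mul_mem_map (P : ℚ_[p][X]) :
    ∃ j, ∃ Q : ℤ_[p][X], Q.map PadicInt.Coe.ringHom = C ((p : ℚ_[p]) ^ j) * P := by
  induction P using Polynomial.induction_on' with
  | add P Q hP hQ =>
    obtain ⟨j, P', hP'⟩ := hP
    obtain ⟨k, Q', hQ'⟩ := hQ
    refine ⟨j + k, C ((p : ℤ_[p]) ^ k) * P' + C ((p : ℤ_[p]) ^ j) * Q', ?_⟩
    rw [Polynomial.map_add, Polynomial.map_mul, Polynomial.map_mul, map_C, map_C, hP', hQ']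
    simp only [map_pow, map_natCast, pow_add, map_mul]
    ring
  | monomial d a =>
    have h : ∃ j : ℕ, ‖(p : ℚ_[p]) ^ j * a‖ ≤ 1 := by
      obtain ⟨j, hj⟩ := exists_pow_lt_of_lt_one (show (0 : ℝ) < (‖a‖ + 1)⁻¹ by positivity)
        (show (p : ℝ)⁻¹ < 1 from inv_lt_one_of_one_lt₀ (by exact_mod_cast hp.out.one_lt))
      refine ⟨j, ?_⟩
      rw [norm_mul, norm_pow, Padic.norm_p]
      refine (mul_le_mul hj.le (le_add_of_nonneg_right zero_le_one) (norm_nonneg a)
        (by positivity)).trans_eq (inv_mul_cancel₀ (by positivity))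
    obtain ⟨j, hj⟩ := h
    exact ⟨j, monomial d ⟨_, hj⟩, by rw [map_monomial, C_mul_monomial]; rfl⟩

/-- **The branch and `ω_n` are coprime up to `p`.** -/
theorem exists_pow_mem_span_sys (hp5 : 5 ≤ p) (hg : IsGen p g) {i : ℕ} (hi : Odd i)
    (hi3 : 3 ≤ i) (hip : i + 2 ≤ p) {u : (ZMod p)ˣ} (hu : (g : ZMod p) ^ i * u = 1) (n : ℕ) :
    ∃ j, (p : ℤ_[p][X]) ^ j ∈ Ideal.span {sys hg u n, omega n} := by
  set φ : ℤ_[p] →+* ℚ_[p] := PadicInt.Coe.ringHom
  have hcop : IsCoprime ((sys hg u n).map φ) ((omega n).map φ) := by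
    by_contra hne
    set d := EuclideanDomain.gcd ((sys hg u n).map φ) ((omega n).map φ)
    have hω0 : (omega n).map φ ≠ 0 := fun h => by
      have h1 := congrArg (fun P : ℚ_[p][X] => P.coeff (p ^ n)) h
      simp [omega, coeff_one_add_X_pow, coeff_one, hp.out.ne_zero] at h1
    have hd0 : d ≠ 0 := fun h => hω0 (by
      simpa [d, EuclideanDomain.gcd_eq_zero_iff] using (EuclideanDomain.gcd_eq_zero_iff.1 h).2)
    have hdu : ¬ IsUnit d := fun h => hne (EuclideanDomain.gcd_isUnit_iff.1 h)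
    have hdeg : d.degree ≠ 0 := fun h => hdu (Polynomial.isUnit_iff_degree_eq_zero.2 h)
    obtain ⟨x, hx⟩ := IsAlgClosed.exists_aeval_eq_zero (PadicAlgCl p) d hdeg
    have hroot : ∀ P : ℤ_[p][X], d ∣ P.map φ → P.eval₂ emb x = 0 := fun P ⟨c, hc⟩ => by
      have h1 : aeval x (P.map φ) = 0 := by rw [hc, map_mul, hx, zero_mul]
      rw [aeval_def, eval₂_map] at h1
      exact h1
    have h1 := hroot _ (EuclideanDomain.gcd_dvd_right _ _)
    rw [omega, eval₂_sub, eval₂_pow, eval₂_add, eval₂_one, eval₂_X, sub_eq_zero] at h1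
    refine ev_sys_ne_zero hp5 hg hi hi3 hip hu h1 ?_
    rw [add_sub_cancel_left]
    exact hroot _ (EuclideanDomain.gcd_dvd_left _ _)
  obtain ⟨a, b, hab⟩ := hcop
  obtain ⟨j, A, hA⟩ := exists_pow_mul_mem_map a
  obtain ⟨k, B, hB⟩ := exists_pow_mul_mem_map b
  refine ⟨j + k, Ideal.mem_span_pair.2 ⟨C ((p : ℤ_[p]) ^ k) * A, C ((p : ℤ_[p]) ^ j) * B, ?_⟩⟩
  refine map_injective φ (show Function.Injective φ from Subtype.coe_injective) ?_
  rw [Polynomial.map_add, Polynomial.map_mul, Polynomial.map_mul, Polynomial.map_mul,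
    Polynomial.map_mul, map_C, map_C, hA, hB, Polynomial.map_pow,
    Polynomial.map_natCast, ← map_natCast (C : ℚ_[p] →+* ℚ_[p][X])]
  simp only [map_pow, map_natCast, pow_add]
  linear_combination ((p : ℚ_[p][X]) ^ j * (p : ℚ_[p][X]) ^ k) * hab

end FA.IwasawaControl
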