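import Fermat.Agent.IwasawaControl.Algebra
import Fermat.Agent.IwasawaControl.Control

/-!
# The action of `ℤ_p[X]` and Stickelberger's element on a weight part

`τ` is an automorphism and `X` acts as `τ - 1`. If `γ` generates the Galois group of
`ℚ(ζ_(p^(n+1)))` and `τ = γ ^ (p ^ n - 1)`, the system of the branch `u = g ^ (-i)` kills the
weight `ω ^ i` part (`polyAct_sys`).
-/

set_option autoImplicit false
set_option linter.unusedSectionVars false
set_option linter.style.haveILetI false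

noncomputable section

open NumberField Polynomial
open scoped Classical

namespace FA.IwasawaControl

open FA.CycloTower (actCl)
open FA.IwasawaStructure (expo)
open FA.IwasawaMinus (IsGen res coefE poly sys cOf omega teich)

variable {p : ℕ} [hp : Fact p.Prime] {m : ℕ} [NeZero m] {L : Type} [Field L] [NumberField L]
  [IsCyclotomicExtension {m} ℚ L] {i : ℕ}

instance moduleWPart : Module (ZMod (p ^ pLvl p L)) (Additive (wPart p m L i)) :=
  AddCommGroup.zmodModule fun a => Additive.toMul.injective (Subtype.ext a.toMul.2.1)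

variable (p m L i) in
/-- The action of the automorphisms on a weight part. -/
def wAct : (L ≃ₐ[ℚ] L) →* AddMonoid.End (Additive (wPart p m L i)) where
  toFun τ :=
    { toFun := fun a => Additive.ofMul ⟨actCl τ a.toMul.1, actCl_mem_wPart τ a.toMul.2⟩
      map_zero' := Additive.toMul.injective (Subtype.ext (map_one (actCl τ)))
      map_add' := fun a b => Additive.toMul.injective
        (Subtype.ext (map_mul (actCl τ) a.toMul.1 b.toMul.1)) }
  map_one' := AddMonoidHom.ext fun a => Additive.toMul.injective (Subtype.ext (by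
    show actCl (1 : L ≃ₐ[ℚ] L) a.toMul.1 = a.toMul.1
    rw [map_one, MulAut.one_apply]))
  map_mul' σ τ := AddMonoidHom.ext fun a => Additive.toMul.injective (Subtype.ext (by
    show actCl (σ * τ) a.toMul.1 = actCl σ (actCl τ a.toMul.1)
    rw [map_mul, MulAut.mul_apply]))

theorem wAct_val (τ : L ≃ₐ[ℚ] L) (a : Additive (wPart p m L i)) :
    ((wAct p m L i τ a).toMul : ClassGroup (𝓞 L)) = actCl τ (a.toMul : ClassGroup (𝓞 L)) := rfl

/-- A sum of endomorphisms at a point. -/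
theorem sum_end_apply {A ι : Type*} [AddCommGroup A] (s : Finset ι) (f : ι → AddMonoid.End A)
    (a : A) : (∑ j ∈ s, f j) a = ∑ j ∈ s, f j a :=
  map_sum (⟨⟨fun φ : AddMonoid.End A => φ a, rfl⟩, fun _ _ => rfl⟩ : AddMonoid.End A →+ A) f s

variable (p m L i) in
/-- `τ - 1`. -/
def diffEnd (τ : L ≃ₐ[ℚ] L) : AddMonoid.End (Additive (wPart p m L i)) := wAct p m L i τ - 1

theorem polyAct_one_add_X_pow (τ : L ≃ₐ[ℚ] L) (j : ℕ) :
    polyAct p (pLvl p L) (diffEnd p m L i τ) ((1 + X) ^ j) = wAct p m L i (τ ^ j) := by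
  rw [map_pow, map_add, map_one, polyAct_X, diffEnd, add_sub_cancel, map_pow]

theorem polyAct_omega {τ : L ≃ₐ[ℚ] L} {n : ℕ} (hτ : τ ^ p ^ n = 1) :
    polyAct p (pLvl p L) (diffEnd p m L i τ) (omega n) = 0 := by
  rw [omega, map_sub, map_one, polyAct_one_add_X_pow, hτ, map_one, sub_self]

theorem polyAct_nuPoly (τ : L ≃ₐ[ℚ] L) (n : ℕ) (a : Additive (wPart p m L i)) :
    ((polyAct p (pLvl p L) (diffEnd p m L i τ) (nuPoly p n) a).toMul : ClassGroup (𝓞 L)) =
      ∏ j ∈ Finset.range (p ^ n), actCl (τ ^ j) (a.toMul : ClassGroup (𝓞 L)) := by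
  rw [nuPoly, map_sum]
  rw [sum_end_apply, toMul_sum, SubmonoidClass.coe_finsetProd]
  refine Finset.prod_congr rfl fun j _ => ?_
  rw [polyAct_one_add_X_pow]
  rfl

/-- The Teichmüller lift modulo `p ^ l`. -/
theorem natCast_pow_eq_teich {u : (ZMod p)ˣ} {e : ℕ} (i l : ℕ)
    (hu : (u : ZMod p) = (e : ZMod p) ^ i) :
    ((e ^ (i * p ^ l) : ℕ) : ZMod (p ^ l)) = PadicInt.toZModPow l (teich u) := by
  have hpu : (p : ℤ_[p]) ∣ ((e ^ i : ℕ) : ℤ_[p]) - teich u := by
    rw [← PadicInt.norm_lt_one_iff_dvd, FA.IwasawaMinus.norm_lt_one_iff_toZMod, map_sub,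
      map_natCast, FA.IwasawaMinus.toZMod_teich, hu, Nat.cast_pow, sub_self]
  have h1 := (dvd_sub_pow_of_dvd_sub hpu l)
  rw [FA.GaussKolyvagin.teich_pow_prime_pow, ← Nat.cast_pow (e ^ i), ← pow_mul] at h1
  have h2 : PadicInt.toZModPow l (((e ^ (i * p ^ l) : ℕ) : ℤ_[p]) - teich u) = 0 := by
    rw [← RingHom.mem_ker, PadicInt.ker_toZModPow, Ideal.mem_span_singleton]
    exact (pow_dvd_pow _ l.le_succ).trans h1
  rwa [map_sub, map_natCast, sub_eq_zero] at h2

section branch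

variable {n g : ℕ} {M : Type} [Field M] [NumberField M] [IsCyclotomicExtension {p ^ (n + 1)} ℚ M]

/-- The inverse of a generator is the residue times `τ` on the weight part. -/
theorem wAct_inv_gen (hg : IsGen p g) {γ : M ≃ₐ[ℚ] M} (hγ : orderOf γ = (p - 1) * p ^ n)
    (hexp : ∀ k, expo (p ^ (n + 1)) (γ ^ k) = res p g n k)
    {u : (ZMod p)ˣ} (hu : (g : ZMod p) ^ i * u = 1) (b : Additive (wPart p (p ^ (n + 1)) M i)) :
    wAct p (p ^ (n + 1)) M i γ⁻¹ b = PadicInt.toZModPow (pLvl p M) (teich u) •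
      wAct p (p ^ (n + 1)) M i (γ ^ (p ^ n - 1)) b := by
  set τ := γ ^ (p ^ n - 1) with hτ
  set δ : M ≃ₐ[ℚ] M := γ⁻¹ * τ⁻¹ with hδ
  have hγδ : γ⁻¹ = δ * τ := by rw [hδ, inv_mul_cancel_right]
  have hδe : δ = (γ ^ p ^ n)⁻¹ := by
    rw [hδ, hτ, ← mul_inv_rev, ← pow_succ, Nat.sub_add_cancel (Nat.one_le_pow n p hp.out.pos)]
  have hδ1 : δ ^ (p - 1) = 1 := by
    rw [hδe, inv_pow, ← pow_mul, mul_comm, ← hγ, pow_orderOf_eq_one, inv_one]
  have hge : ((expo (p ^ (n + 1)) δ : ℕ) : ZMod p) * (g : ZMod p) = 1 := by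
    have h1 : ((expo (p ^ (n + 1)) (γ ^ p ^ n) : ℕ) : ZMod p) = g := by
      rw [hexp, res, ZMod.natCast_val,
        ← ZMod.castHom_apply (h := dvd_level (p := p) (n := n)) (R := ZMod p), map_pow, map_natCast,
        ZMod.pow_card_pow]
    rw [← h1, ← expo_mul_cast (dvd_level (p := p) (n := n)), hδe, inv_mul_cancel,
      expo_one_cast (dvd_level (p := p) (n := n))]
  have hue : (u : ZMod p) = ((expo (p ^ (n + 1)) δ : ℕ) : ZMod p) ^ i := by
    refine mul_left_cancel₀ (pow_ne_zero i (FA.IwasawaMinus.gen_ne_zero hg)) ?_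
    rw [hu, ← mul_pow, mul_comm, hge, one_pow]
  set w : ZMod (p ^ pLvl p M) := PadicInt.toZModPow (pLvl p M) (teich u)
  rw [hγδ, map_mul]
  show wAct p (p ^ (n + 1)) M i δ (wAct p (p ^ (n + 1)) M i τ b) = _
  set c := wAct p (p ^ (n + 1)) M i τ b
  rw [show w = ((expo (p ^ (n + 1)) δ ^ (i * p ^ pLvl p M) : ℕ) : ZMod (p ^ pLvl p M)) from
    (natCast_pow_eq_teich i (pLvl p M) hue).symm, Nat.cast_smul_eq_nsmul]
  exact Additive.toMul.injective (Subtype.ext (c.toMul.2.2 δ hδ1))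

/-- **The branch of the weight kills it.** -/
theorem polyAct_sys (hg : IsGen p g) {γ : M ≃ₐ[ℚ] M} (hγ : orderOf γ = (p - 1) * p ^ n)
    (hgen : ∀ σ, σ ∈ Subgroup.zpowers γ) (hexp : ∀ k, expo (p ^ (n + 1)) (γ ^ k) = res p g n k)
    {u : (ZMod p)ˣ} (hu : (g : ZMod p) ^ i * u = 1) (a : Additive (wPart p (p ^ (n + 1)) M i)) :
    polyAct p (pLvl p M) (diffEnd p (p ^ (n + 1)) M i (γ ^ (p ^ n - 1))) (sys hg u n) a = 0 := by
  set τ := γ ^ (p ^ n - 1) with hτ
  set w : ZMod (p ^ pLvl p M) := PadicInt.toZModPow (pLvl p M) (teich u)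
  have hstep : ∀ b : Additive (wPart p (p ^ (n + 1)) M i),
      wAct p (p ^ (n + 1)) M i γ⁻¹ b = w • wAct p (p ^ (n + 1)) M i τ b :=
    wAct_inv_gen hg hγ hexp hu
  have hpow : ∀ (k : ℕ) (b : Additive (wPart p (p ^ (n + 1)) M i)),
      wAct p (p ^ (n + 1)) M i (γ⁻¹ ^ k) b = w ^ k • wAct p (p ^ (n + 1)) M i (τ ^ k) b := by
    intro k
    induction k with
    | zero => intro b; rw [pow_zero, pow_zero, pow_zero, one_smul]
    | succ k ih =>
      intro b
      rw [pow_succ' γ⁻¹ k, map_mul]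
      show wAct p (p ^ (n + 1)) M i γ⁻¹ (wAct p (p ^ (n + 1)) M i (γ⁻¹ ^ k) b) = _
      rw [ih, ZMod.map_smul, hstep, smul_smul, ← pow_succ w k, pow_succ' τ k, map_mul]
      rfl
  rw [sys, poly, Polynomial.map_sum, ← coe_compRingHom_apply, map_sum, map_sum]
  rw [sum_end_apply]
  have hterm : ∀ k, polyAct p (pLvl p M) (diffEnd p (p ^ (n + 1)) M i τ)
      (compRingHom (C (teich u) * (1 + X))
        ((C (coefE p g (cOf hg u) n k) * X ^ k : ℤ[X]).map (Int.castRingHom ℤ_[p]))) a =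
      coefE p g (cOf hg u) n k • wAct p (p ^ (n + 1)) M i (γ⁻¹ ^ k) a := fun k => by
    rw [Polynomial.map_mul, Polynomial.map_pow, map_X, map_C, coe_compRingHom_apply, mul_comp,
      C_comp, pow_comp, X_comp, mul_pow, ← C_pow, ← mul_assoc, ← C_mul, polyAct_mul_apply,
      polyAct_C, polyAct_one_add_X_pow, map_mul, map_pow, eq_intCast (Int.castRingHom ℤ_[p]),
      map_intCast, mul_smul, hpow, Int.cast_smul_eq_zsmul]
  rw [Finset.sum_congr rfl fun k _ => hterm k]
  refine Additive.toMul.injective (Subtype.ext ?_)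
  rw [toMul_sum, SubmonoidClass.coe_finsetProd]
  refine Eq.trans (Finset.prod_congr rfl fun k _ => ?_)
    (FA.IwasawaStructure.prod_pow_coefE hγ hgen hexp (cOf hg u) (a.toMul : ClassGroup (𝓞 M)))
  rw [toMul_zsmul, SubgroupClass.coe_zpow, wAct_val]

end branch

end FA.IwasawaControl
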