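import Fermat.Agent.IwasawaMinus.Poly
import Mathlib.Algebra.Module.ZMod

/-!
# Cyclic modules over `ℤ_p[X] / ((1 + X)^(p^n) - 1)` killed by one element

A finite `p`-group `M` with an endomorphism `T`, `(1 + T)^(p^n) = 1`, generated modulo `T M` by
`x`, is `ℤ_p[X] / (θ, ω_n)` if `θ(T) x = 0`, the two polynomials generate an ideal containing a
power of `p`, and `θ(0)` is a unit times the order of `ν(T) x`, `ν = ω_n / X`
(`cyclic_annihilator`): the socle of that quotient is spanned by a multiple of `ν`.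
-/

set_option autoImplicit false
set_option linter.unusedSectionVars false
set_option linter.style.haveILetI false

noncomputable section

open Polynomial
open scoped Classical

namespace FA.IwasawaControl

open FA.IwasawaMinus (omega)

variable {p : ℕ} [hp : Fact p.Prime] {N : ℕ} {M : Type*} [AddCommGroup M] [Module (ZMod (p ^ N)) M]

variable (p N) in
/-- The scalars. -/
def scalarEnd : ℤ_[p] →+* AddMonoid.End M :=
  (Module.toAddMonoidEnd (ZMod (p ^ N)) M).comp (PadicInt.toZModPow N)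

theorem commute_scalarEnd (T : AddMonoid.End M) (a : ℤ_[p]) :
    Commute (scalarEnd p N a) T := by
  ext y
  show (PadicInt.toZModPow N a : ZMod (p ^ N)) • T y = T ((PadicInt.toZModPow N a) • y)
  exact (ZMod.map_smul T _ y).symm

variable (p N) in
/-- The action of a polynomial. -/
def polyAct (T : AddMonoid.End M) : ℤ_[p][X] →+* AddMonoid.End M :=
  eval₂RingHom' (scalarEnd p N) T (commute_scalarEnd T)

variable (T : AddMonoid.End M)

theorem polyAct_X : polyAct p N T X = T := eval₂_X _ _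

theorem polyAct_C (a : ℤ_[p]) (y : M) :
    polyAct p N T (C a) y = (PadicInt.toZModPow N a : ZMod (p ^ N)) • y :=
  DFunLike.congr_fun (eval₂_C (scalarEnd p N) T) y

theorem polyAct_mul_apply (f g : ℤ_[p][X]) (y : M) :
    polyAct p N T (f * g) y = polyAct p N T f (polyAct p N T g y) := by
  rw [map_mul]; rfl

theorem polyAct_natCast_pow : polyAct p N T ((p : ℤ_[p][X]) ^ N) = 0 := by
  ext y
  rw [← map_natCast (C : ℤ_[p] →+* ℤ_[p][X]), ← map_pow, polyAct_C, map_pow, map_natCast,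
    ← Nat.cast_pow, ZMod.natCast_self, zero_smul]
  rfl

variable (p) in
/-- `ω_n / X`. -/
def nuPoly (n : ℕ) : ℤ_[p][X] := ∑ j ∈ Finset.range (p ^ n), (1 + X) ^ j

theorem X_mul_nuPoly (n : ℕ) : X * nuPoly p n = omega n := by
  have h := geom_sum_mul (1 + X : ℤ_[p][X]) (p ^ n)
  rw [add_sub_cancel_left, mul_comm] at h
  exact h

/-- `ω_n` is `X ^ (p ^ n)` modulo `p`. -/
theorem natCast_dvd_omega_sub (n : ℕ) :
    (p : ℤ_[p][X]) ∣ omega n - X ^ p ^ n := by
  rw [← map_natCast (C : ℤ_[p] →+* ℤ_[p][X]), C_dvd_iff_dvd_coeff]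
  intro j
  rw [← PadicInt.norm_lt_one_iff_dvd, PadicInt.norm_lt_one_iff_dvd,
    ← Ideal.mem_span_singleton, ← PadicInt.maximalIdeal_eq_span_p, ← PadicInt.ker_toZMod,
    RingHom.mem_ker, ← coeff_map]
  simp [omega, add_pow_char_pow]

/-- A power of `X` lies in every ideal containing `ω_n` and a power of `p`. -/
theorem X_pow_mem {n j : ℕ} {J : Ideal ℤ_[p][X]} (hω : omega n ∈ J)
    (hj : (p : ℤ_[p][X]) ^ j ∈ J) : (X : ℤ_[p][X]) ^ (p ^ n * j) ∈ J := by
  obtain ⟨a, ha⟩ := natCast_dvd_omega_sub (p := p) n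
  rw [← Ideal.Quotient.eq_zero_iff_mem] at hω hj ⊢
  rw [pow_mul, map_pow, show (X : ℤ_[p][X]) ^ p ^ n = omega n - (p : ℤ_[p][X]) * a by
    rw [← ha]; ring, map_sub, hω, zero_sub, neg_pow (Ideal.Quotient.mk J _), map_mul,
    mul_pow, ← map_pow _ (p : ℤ_[p][X]),
    hj, zero_mul, mul_zero]

variable {T}

/-- **Cyclic modules.** -/
theorem cyclic_annihilator {n : ℕ} {x : M} {θ : ℤ_[p][X]} {v : ℕ} {u : ℤ_[p]ˣ}
    (hgen : ∀ y : M, ∃ (c : ℕ) (z : M), y = c • x + T z)
    (hω : polyAct p N T (omega n) = 0) (hθ : polyAct p N T θ x = 0)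
    (hθ0 : θ.coeff 0 = (p : ℤ_[p]) ^ v * u)
    (hν : addOrderOf (polyAct p N T (nuPoly p n) x) = p ^ v)
    (hJ : ∃ j, (p : ℤ_[p][X]) ^ j ∈ Ideal.span {θ, omega n}) :
    (∀ y : M, ∃ f, y = polyAct p N T f x) ∧
      ∀ f, polyAct p N T f x = 0 ↔ f ∈ Ideal.span {θ, omega n} := by
  set J : Ideal ℤ_[p][X] := Ideal.span {θ, omega n}
  refine ⟨fun y => ?_, fun f => ⟨fun hf => ?_, fun hf => ?_⟩⟩
  · have hit : ∀ j : ℕ, ∃ f z, y = polyAct p N T f x + polyAct p N T (X ^ j) z := by
      intro j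
      induction j with
      | zero => exact ⟨0, y, by simp⟩
      | succ j ih =>
        obtain ⟨f, z, hz⟩ := ih
        obtain ⟨c, z', hz'⟩ := hgen z
        refine ⟨f + X ^ j * (c : ℤ_[p][X]), z', ?_⟩
        rw [hz, hz', pow_succ, polyAct_mul_apply, polyAct_X, map_add (polyAct p N T)]
        show _ = polyAct p N T f x + polyAct p N T (X ^ j * (c : ℤ_[p][X])) x + _
        rw [polyAct_mul_apply, map_natCast, AddMonoid.End.natCast_apply, map_add, add_assoc]
    obtain ⟨f, z, hz⟩ := hit (p ^ n * N)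
    refine ⟨f, ?_⟩
    have h0 : polyAct p N T (X ^ (p ^ n * N)) = 0 := RingHom.mem_ker.1
      (X_pow_mem (J := RingHom.ker (polyAct p N T)) (RingHom.mem_ker.2 hω)
        (RingHom.mem_ker.2 (polyAct_natCast_pow T)))
    rw [hz, h0]
    simp
  · by_contra hfJ
    obtain ⟨j₀, hj₀⟩ := hJ
    have hnil : (X : ℤ_[p][X]) ^ (p ^ n * j₀) * f ∈ J :=
      J.mul_mem_right _ (X_pow_mem (Ideal.subset_span (by simp)) hj₀)
    have hex : ∃ k, (X : ℤ_[p][X]) ^ k * f ∈ J := ⟨_, hnil⟩
    set k := Nat.find hex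
    have hk0 : k ≠ 0 := fun h => hfJ (by
      have := Nat.find_spec hex
      rwa [show Nat.find hex = 0 from h, pow_zero, one_mul] at this)
    obtain ⟨k', hk'⟩ := Nat.exists_eq_succ_of_ne_zero hk0
    set g := (X : ℤ_[p][X]) ^ k' * f with hg
    have hgJ : g ∉ J := Nat.find_min hex (show k' < k by omega)
    have hgx : polyAct p N T g x = 0 := by rw [hg, polyAct_mul_apply, hf, map_zero]
    have hXg : X * g ∈ J := by
      rw [hg, ← mul_assoc, ← pow_succ', show k' + 1 = k from hk'.symm]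
      exact Nat.find_spec hex
    obtain ⟨a, b, hab⟩ := Ideal.mem_span_pair.1 hXg
    have ha0 : a.coeff 0 = 0 := by
      have h := congrArg (fun P : ℤ_[p][X] => P.coeff 0) hab
      simp only [coeff_add, mul_coeff_zero, coeff_X_zero, zero_mul] at h
      rw [show (omega n : ℤ_[p][X]).coeff 0 = 0 by simp [omega, coeff_zero_eq_eval_zero],
        mul_zero, add_zero, hθ0] at h
      refine (mul_eq_zero.1 h).resolve_right (mul_ne_zero ?_ u.ne_zero)
      exact pow_ne_zero _ (Nat.cast_ne_zero.2 hp.out.ne_zero)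
    obtain ⟨a', rfl⟩ := X_dvd_iff.2 ha0
    have hgeq : g = a' * θ + b * nuPoly p n := by
      refine mul_left_cancel₀ X_ne_zero ?_
      rw [← hab, ← X_mul_nuPoly n]
      ring
    obtain ⟨b', hb'⟩ := X_dvd_iff.2 (show (b - C (b.coeff 0)).coeff 0 = 0 by simp)
    set c := b.coeff 0
    have hgc : g - C c * nuPoly p n ∈ J := by
      rw [hgeq, show a' * θ + b * nuPoly p n - C c * nuPoly p n =
        a' * θ + (b - C c) * nuPoly p n by ring, hb',
        show X * b' * nuPoly p n = b' * (X * nuPoly p n) by ring, X_mul_nuPoly]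
      exact Ideal.mem_span_pair.2 ⟨a', b', rfl⟩
    have hker : ∀ P ∈ J, polyAct p N T P x = 0 := fun P hP => by
      obtain ⟨s, t, rfl⟩ := Ideal.mem_span_pair.1 hP
      rw [map_add]
      show polyAct p N T (s * θ) x + polyAct p N T (t * omega n) x = 0
      rw [polyAct_mul_apply, polyAct_mul_apply, hθ, hω]
      simp
    have hcx : (PadicInt.toZModPow N c : ZMod (p ^ N)) • polyAct p N T (nuPoly p n) x = 0 := by
      have h := hker _ hgc
      rw [map_sub] at h
      change polyAct p N T g x - polyAct p N T (C c * nuPoly p n) x = 0 at h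
      rwa [hgx, zero_sub, neg_eq_zero, polyAct_mul_apply, polyAct_C] at h
    have hvN : p ^ v ∣ p ^ N := by
      rw [← hν, addOrderOf_dvd_iff_nsmul_eq_zero, ← Nat.cast_smul_eq_nsmul (ZMod (p ^ N)),
        ZMod.natCast_self, zero_smul]
    haveI : NeZero (p ^ N) := ⟨pow_ne_zero _ hp.out.ne_zero⟩
    have hdvd : (p : ℤ_[p]) ^ v ∣ c := by
      have h1 : p ^ v ∣ (PadicInt.toZModPow N c).val := by
        rw [← hν, addOrderOf_dvd_iff_nsmul_eq_zero, ← Nat.cast_smul_eq_nsmul (ZMod (p ^ N)),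
          ZMod.natCast_zmod_val]
        exact hcx
      have h2 : (p : ℤ_[p]) ^ N ∣ c - ((PadicInt.toZModPow N c).val : ℤ_[p]) := by
        rw [← Ideal.mem_span_singleton, ← PadicInt.ker_toZModPow, RingHom.mem_ker, map_sub,
          map_natCast, ZMod.natCast_zmod_val, sub_self]
      have h3 : (p : ℤ_[p]) ^ v ∣ (p : ℤ_[p]) ^ N := by
        have := Nat.cast_dvd_cast (α := ℤ_[p]) hvN
        rwa [Nat.cast_pow, Nat.cast_pow] at this
      have h4 : (p : ℤ_[p]) ^ v ∣ ((PadicInt.toZModPow N c).val : ℤ_[p]) := by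
        have := Nat.cast_dvd_cast (α := ℤ_[p]) h1
        rwa [Nat.cast_pow] at this
      simpa using dvd_add (h3.trans h2) h4
    obtain ⟨c', hc'⟩ := hdvd
    obtain ⟨θ', hθ'⟩ := X_dvd_iff.2 (show (θ - C (θ.coeff 0)).coeff 0 = 0 by simp)
    have hpν : C ((p : ℤ_[p]) ^ v) * nuPoly p n ∈ J := by
      have h : C (θ.coeff 0) * nuPoly p n ∈ J := by
        rw [show C (θ.coeff 0) * nuPoly p n =
          nuPoly p n * θ + (-θ') * omega n by
            rw [← X_mul_nuPoly]; linear_combination (-nuPoly p n) * hθ']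
        exact Ideal.mem_span_pair.2 ⟨_, _, rfl⟩
      have h1 := J.mul_mem_left (C (↑u⁻¹ : ℤ_[p])) h
      rwa [hθ0, ← mul_assoc, ← C_mul, mul_left_comm, Units.inv_mul, mul_one] at h1
    refine hgJ ?_
    have h := J.add_mem hgc (J.mul_mem_left (C c') hpν)
    rwa [← mul_assoc, ← C_mul, mul_comm c', ← hc', sub_add_cancel] at h
  · obtain ⟨s, t, rfl⟩ := Ideal.mem_span_pair.1 hf
    rw [map_add]
    show polyAct p N T (s * θ) x + polyAct p N T (t * omega n) x = 0
    rw [polyAct_mul_apply, polyAct_mul_apply, hθ, hω]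
    simp

end FA.IwasawaControl
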