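import Fermat.Agent.IwasawaControl.Module
import Fermat.Agent.IwasawaControl.Branch

/-!
# The main conjecture for a cyclic branch at every level

If the weight `ω ^ i` part of `ℚ(ζ_p)` is cyclic, the one of `ℚ(ζ_(p^(n+1)))` is
`ℤ_p[X] / (θ, ω_n)`, `θ` the branch of Stickelberger's element (`exists_generator_iff`).
-/

set_option autoImplicit false
set_option linter.unusedSectionVars false
set_option linter.style.haveILetI false

noncomputable section

open NumberField Polynomial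
open scoped Classical

namespace FA.IwasawaControl

open FA.CycloTower (actCl)
open FA.IwasawaStructure (expo)
open FA.IwasawaMinus (IsGen res sys omega)
open FA.GaussKolyvagin (bexp)

variable {p : ℕ} [hp : Fact p.Prime] {n g : ℕ} {K L : Type} [Field K] [NumberField K]
  [IsCyclotomicExtension {p} ℚ K] [Field L] [NumberField L]
  [IsCyclotomicExtension {p ^ (n + 1)} ℚ L] [Algebra K L] {i : ℕ}

variable (K) in
/-- The automorphism `γ ^ (p ^ n - 1)` generates the group over `K`. -/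
theorem exists_base_generator (hg : IsGen p g) {γ : L ≃ₐ[ℚ] L}
    (hγ : orderOf γ = (p - 1) * p ^ n) (hgen : ∀ σ, σ ∈ Subgroup.zpowers γ)
    (hexp : ∀ k, expo (p ^ (n + 1)) (γ ^ k) = res p g n k) :
    ∃ σ : L ≃ₐ[K] L, σ.restrictScalars ℚ = γ ^ (p ^ n - 1) ∧
      (∀ h, h ∈ Subgroup.zpowers σ) ∧ orderOf σ = p ^ n := by
  obtain ⟨s, hs⟩ := Nat.sub_one_dvd_pow_sub_one p n
  have hk : ∀ k, ((expo (p ^ (n + 1)) (γ ^ k) : ℕ) : ZMod p) = (g : ZMod p) ^ k := fun k => by
    rw [hexp, res, ZMod.natCast_val,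
      ← ZMod.castHom_apply (h := dvd_level (p := p) (n := n)) (R := ZMod p), map_pow, map_natCast]
  have hfix : ∀ x : K, (γ ^ (p ^ n - 1)) (algebraMap K L x) = algebraMap K L x := fun x => by
    obtain ⟨σ₀, hσ₀, he⟩ := exists_restrict p n (K := K) (γ ^ (p ^ n - 1))
    have hgu : (g : ZMod p) ^ (p - 1) = 1 :=
      ZMod.pow_card_sub_one_eq_one (FA.IwasawaMinus.gen_ne_zero hg)
    rw [hk, hs, pow_mul, hgu, one_pow] at he
    have h1 : σ₀ = 1 := by
      refine (IsCyclotomicExtension.Rat.galEquivZMod p K).injective (Units.ext ?_)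
      rw [map_one, Units.val_one, ← he, expo, ZMod.natCast_zmod_val]
    rw [hσ₀, h1]
    rfl
  let σ : L ≃ₐ[K] L := AlgEquiv.ofRingEquiv (f := (γ ^ (p ^ n - 1)).toRingEquiv) hfix
  have hσ : σ.restrictScalars ℚ = γ ^ (p ^ n - 1) := AlgEquiv.ext fun x => rfl
  have hgenσ : ∀ h, h ∈ Subgroup.zpowers σ := by
    intro h
    obtain ⟨k, hk'⟩ := mem_powers_iff_mem_zpowers.mpr (hgen (h.restrictScalars ℚ))
    have hk1 : (g : ZMod p) ^ k = 1 := by
      obtain ⟨σ₀, hσ₀, he⟩ := exists_restrict p n (K := K) (h.restrictScalars ℚ)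
      have h1 : σ₀ = 1 := AlgEquiv.ext fun x => (algebraMap K L).injective (by
        rw [← hσ₀]
        exact h.commutes x)
      rw [h1, expo_one_cast dvd_rfl] at he
      rw [← hk, show γ ^ k = h.restrictScalars ℚ from hk', ← he]
    obtain ⟨j, rfl⟩ : p - 1 ∣ k :=
      FA.IwasawaMinus.orderOf_gen_mod hg ▸ orderOf_dvd_of_pow_eq_one hk1
    haveI : NeZero (p ^ n) := ⟨pow_ne_zero _ hp.out.ne_zero⟩
    have hsu : IsUnit (s : ZMod (p ^ n)) := by
      rcases Nat.eq_zero_or_pos n with rfl | hn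
      · haveI : Subsingleton (ZMod (p ^ 0)) := by rw [pow_zero]; infer_instance
        exact isUnit_of_subsingleton _
      rw [ZMod.isUnit_iff_coprime]
      refine ((hp.out.coprime_iff_not_dvd.2 fun hd => ?_).symm).pow_right n
      have h1 : p ∣ p ^ n - 1 := hs ▸ hd.mul_left _
      have h2 : p ∣ p ^ n := dvd_pow_self p hn.ne'
      have h3 := Nat.dvd_sub h2 h1
      rw [Nat.sub_sub_self (Nat.one_le_pow n p hp.out.pos)] at h3
      exact hp.out.ne_one (Nat.dvd_one.1 h3)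
    obtain ⟨t, ht⟩ := hsu.exists_left_inv
    set l := (t * (j : ZMod (p ^ n))).val
    have hmod : s * l ≡ j [MOD p ^ n] := by
      rw [← ZMod.natCast_eq_natCast_iff, Nat.cast_mul, ZMod.natCast_zmod_val, ← mul_assoc,
        mul_comm _ t, ht, one_mul]
    refine Subgroup.mem_zpowers_iff.2 ⟨l, ?_⟩
    have hpow : ((σ ^ l).restrictScalars ℚ : L ≃ₐ[ℚ] L) = (σ.restrictScalars ℚ) ^ l := by
      induction l with
      | zero => rfl
      | succ l ih => rw [pow_succ (σ.restrictScalars ℚ) l, ← ih, pow_succ]; rfl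
    have h4 : (σ ^ l).restrictScalars ℚ = h.restrictScalars ℚ := by
      rw [hpow, hσ, ← hk', ← pow_mul, hs, mul_assoc]
      refine pow_eq_pow_iff_modEq.2 ?_
      rw [hγ]
      exact hmod.mul_left' (p - 1)
    rw [zpow_natCast]
    exact AlgEquiv.ext fun x => AlgEquiv.congr_fun h4 x
  haveI : IsGalois K L := FA.ClassField94.isGalois_tower (p := p) (n := n)
  exact ⟨σ, hσ, hgenσ, by rw [orderOf_eq_card_of_forall_mem_zpowers hgenσ,
    IsGalois.card_aut_eq_finrank, FA.ClassField94.finrank_tower (p := p) (n := n)]⟩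

/-- The product over the group as a product over the powers of a generator. -/
theorem prod_eq_prod_range {σ : L ≃ₐ[K] L} (hσ : ∀ h, h ∈ Subgroup.zpowers σ) {d : ℕ}
    (hd : orderOf σ = d) (f : (L ≃ₐ[K] L) → ClassGroup (𝓞 L)) :
    ∏ j ∈ Finset.range d, f (σ ^ j) = ∏ h, f h := by
  refine Finset.prod_bij (fun j _ => σ ^ j) (fun j _ => Finset.mem_univ _) (fun a ha b hb h => ?_)
    (fun h _ => ?_) fun j _ => rfl
  · rw [Finset.mem_range, ← hd] at ha hb
    exact pow_injOn_Iio_orderOf ha hb h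
  · obtain ⟨j, rfl⟩ := mem_powers_iff_mem_zpowers.mpr (hσ h)
    refine ⟨j % d, Finset.mem_range.mpr (Nat.mod_lt _ (hd ▸ orderOf_pos σ)), ?_⟩
    rw [← hd]
    exact pow_mod_orderOf σ j

variable (K) in
/-- **The main conjecture for a cyclic branch.** -/
theorem exists_generator_iff (hp5 : 5 ≤ p) (hg : IsGen p g) (hi : Odd i) (hi3 : 3 ≤ i)
    (hip : i + 2 ≤ p) (hcyc : IsCyclic (wPart p p K i)) {γ : L ≃ₐ[ℚ] L}
    (hγ : orderOf γ = (p - 1) * p ^ n) (hgen : ∀ σ, σ ∈ Subgroup.zpowers γ)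
    (hexp : ∀ k, expo (p ^ (n + 1)) (γ ^ k) = res p g n k)
    {u : (ZMod p)ˣ} (hu : (g : ZMod p) ^ i * u = 1) :
    ∃ x : Additive (wPart p (p ^ (n + 1)) L i),
      (∀ a, ∃ f, a = polyAct p (pLvl p L)
        (diffEnd p (p ^ (n + 1)) L i (γ ^ (p ^ n - 1))) f x) ∧
      ∀ f, polyAct p (pLvl p L) (diffEnd p (p ^ (n + 1)) L i (γ ^ (p ^ n - 1))) f x = 0 ↔
        f ∈ Ideal.span {sys hg u n, omega n} := by
  have hp2 : p ≠ 2 := by omega
  obtain ⟨σ, hσ, hgenσ, hordσ⟩ := exists_base_generator K hg hγ hgen hexp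
  set τ := γ ^ (p ^ n - 1)
  obtain ⟨y, hy⟩ := hcyc.exists_generator
  obtain ⟨w, hw, hwN⟩ := exists_norm_eq p n (L := L) y.2
  set x : Additive (wPart p (p ^ (n + 1)) L i) := Additive.ofMul ⟨w, hw⟩
  have hτpow : ∀ (j : ℕ) (c : ClassGroup (𝓞 L)), actCl (τ ^ j) c = actCl (σ ^ j) c := by
    intro j c
    induction j generalizing c with
    | zero => simp
    | succ j ih =>
      rw [pow_succ τ j, pow_succ σ j, map_mul, map_mul, MulAut.mul_apply, MulAut.mul_apply, ih,
        ← hσ, actCl_restrictScalars]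
  have hνx : ((polyAct p (pLvl p L) (diffEnd p (p ^ (n + 1)) L i τ) (nuPoly p n) x).toMul :
      ClassGroup (𝓞 L)) = ClassGroup.extendedHom (𝓞 K) (𝓞 L) (y : ClassGroup (𝓞 K)) := by
    rw [polyAct_nuPoly, Finset.prod_congr rfl fun j _ => hτpow j _]
    show ∏ j ∈ Finset.range (p ^ n), actCl (σ ^ j) w = _
    rw [prod_eq_prod_range hgenσ hordσ fun h => actCl h w, hwN]
  obtain ⟨wu, hwu⟩ := exists_unit_coeff_zero_sys hp5 hg hi hi3 hip hu n
  refine ⟨x, cyclic_annihilator (θ := sys hg u n) (v := bexp p i) (u := wu) (fun a => ?_) ?_ ?_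
    hwu ?_ (exists_pow_mem_span_sys hp5 hg hi hi3 hip hu n)⟩
  · -- every class is a multiple of `x` up to the image of `τ - 1`
    have hA := actCl_mem_wPart_over (p := p) (n := n) (K := K) (L := L) (i := i)
    obtain ⟨y', hy', hyN⟩ := (fixed_iff p n (K := K) hp2 hi).1
      ⟨(wPart p (p ^ (n + 1)) L i).prod_mem fun h _ => hA h a.toMul.2,
        fun h => actCl_prod p n h (a.toMul : ClassGroup (𝓞 L))⟩
    obtain ⟨c, hc⟩ := mem_powers_iff_mem_zpowers.2 (hy ⟨y', hy'⟩)
    have hnorm : ∏ h : L ≃ₐ[K] L, actCl h ((a.toMul : ClassGroup (𝓞 L)) / w ^ c) = 1 := by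
      simp only [_root_.map_div, map_pow, Finset.prod_div_distrib, Finset.prod_pow, hwN]
      rw [← hyN, show y' = ((y ^ c : wPart p p K i) : ClassGroup (𝓞 K)) from
        (congrArg Subtype.val hc).symm, SubmonoidClass.coe_pow, map_pow, div_self']
    obtain ⟨z, hz, hza⟩ := (norm_eq_one_iff p n hp2 hi hgenσ
      (Subgroup.div_mem _ a.toMul.2 (Subgroup.pow_mem _ hw c))).1 hnorm
    refine ⟨c, Additive.ofMul ⟨z, hz⟩, Additive.toMul.injective (Subtype.ext ?_)⟩
    show (a.toMul : ClassGroup (𝓞 L)) = w ^ c * (actCl τ z / z)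
    have h1 := hτpow 1 z
    rw [pow_one, pow_one] at h1
    rw [h1, hza, mul_div_cancel]
  · refine polyAct_omega ?_
    have h := orderOf_dvd_iff_pow_eq_one.1 (show orderOf γ ∣ (p ^ n - 1) * p ^ n by
      rw [hγ]; exact mul_dvd_mul_right (Nat.sub_one_dvd_pow_sub_one p n) _)
    rwa [pow_mul] at h
  · exact polyAct_sys hg hγ hgen hexp hu x
  · have hinj : ∀ z : wPart p p K i,
        ClassGroup.extendedHom (𝓞 K) (𝓞 L) (z : ClassGroup (𝓞 K)) = 1 → z = 1 :=
      fun z h => Subtype.ext (extended_injective n hp2 hi z.2 h)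
    rw [← card_wPart_base K hp5 hi hi3 hip, ← orderOf_eq_card_of_forall_mem_zpowers hy]
    refine Nat.dvd_antisymm ?_ ?_
    · rw [addOrderOf_dvd_iff_nsmul_eq_zero]
      refine Additive.toMul.injective (Subtype.ext ?_)
      rw [toMul_nsmul, SubmonoidClass.coe_pow, hνx, ← map_pow, ← SubmonoidClass.coe_pow,
        pow_orderOf_eq_one, OneMemClass.coe_one, map_one]
      rfl
    · refine orderOf_dvd_of_pow_eq_one (hinj _ ?_)
      rw [SubmonoidClass.coe_pow, map_pow, ← hνx, ← SubmonoidClass.coe_pow, ← toMul_nsmul,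
        addOrderOf_nsmul_eq_zero]
      rfl

variable (p K i) in
/-- The base part is cyclic if `p ^ 2` does not divide `B_(1,ω^-i)`. -/
theorem isCyclic_base_of_bexp_le_one (hp5 : 5 ≤ p) (hi : Odd i) (hi3 : 3 ≤ i) (hip : i + 2 ≤ p)
    (hv : bexp p i ≤ 1) : IsCyclic (wPart p p K i) := by
  have hcard := card_wPart_base K hp5 hi hi3 hip
  rcases Nat.le_one_iff_eq_zero_or_eq_one.1 hv with h | h
  · rw [h, pow_zero, Nat.card_eq_one_iff_unique] at hcard
    haveI := hcard.1
    exact isCyclic_of_subsingleton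
  · rw [h, pow_one] at hcard
    exact isCyclic_of_prime_card hcard

end FA.IwasawaControl
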