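import Fermat.Agent.IwasawaControl.Weight
import Fermat.Agent.IwasawaStructure.FixedClass
import Fermat.Agent.CycloTower.Main
import Fermat.Agent.ClassField94.PrimePowerLevels

/-!
# The fixed classes of an odd weight

`K = ℚ(ζ_p) ⊆ L = ℚ(ζ_(p^(n+1)))`. The extension maps the weight `ω ^ i` part of `K` injectively
into the one of `L` for odd `i` (`extended_injective`), onto the classes fixed by `Gal(L/K)`
(`exists_extended_of_fixed`).
-/

set_option autoImplicit false
set_option linter.unusedSectionVars false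
set_option linter.style.haveILetI false

noncomputable section

open NumberField NumberField.IsCMField
open scoped Classical Pointwise

namespace FA.IwasawaControl

open FA.CycloTower (actCl normU actU)
open FA.IwasawaStructure (expo)

variable {p : ℕ} [hp : Fact p.Prime] {n : ℕ}
  {K L : Type} [Field K] [NumberField K] [IsCyclotomicExtension {p} ℚ K]
  [Field L] [NumberField L] [IsCyclotomicExtension {p ^ (n + 1)} ℚ L] [Algebra K L]

instance neZero_level : NeZero (p ^ (n + 1)) := ⟨pow_ne_zero _ hp.out.ne_zero⟩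

instance neZero_base : NeZero p := ⟨hp.out.ne_zero⟩

theorem dvd_level : p ∣ p ^ (n + 1) := dvd_pow_self p n.succ_ne_zero

/-- The action over `K` is the action over `ℚ`. -/
theorem actCl_restrictScalars (g : L ≃ₐ[K] L) (x : ClassGroup (𝓞 L)) :
    actCl (g.restrictScalars ℚ) x = actCl g x := by
  have e : MulSemiringAction.toRingEquiv (L ≃ₐ[ℚ] L) (𝓞 L) (g.restrictScalars ℚ) =
      MulSemiringAction.toRingEquiv (L ≃ₐ[K] L) (𝓞 L) g :=
    RingEquiv.ext fun y => RingOfIntegers.ext rfl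
  show ClassGroup.mulEquiv _ x = ClassGroup.mulEquiv _ x
  rw [e]

/-- The extension is equivariant. -/
theorem extendedHom_actCl {σ : L ≃ₐ[ℚ] L} {σ₀ : K ≃ₐ[ℚ] K}
    (h : ∀ z, σ (algebraMap K L z) = algebraMap K L (σ₀ z)) (y : ClassGroup (𝓞 K)) :
    ClassGroup.extendedHom (𝓞 K) (𝓞 L) (actCl σ₀ y) =
      actCl σ (ClassGroup.extendedHom (𝓞 K) (𝓞 L) y) := by
  obtain ⟨I, rfl⟩ := ClassGroup.mk0_surjective y
  show ClassGroup.extendedHom (𝓞 K) (𝓞 L) (ClassGroup.mulEquiv _ (ClassGroup.mk0 I)) =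
    ClassGroup.mulEquiv _ _
  rw [ClassGroup.mulEquiv_mk0, ClassGroup.extendedHom_mk0, ClassGroup.extendedHom_mk0,
    ClassGroup.mulEquiv_mk0]
  refine congrArg ClassGroup.mk0 (Subtype.ext ?_)
  show ((I : Ideal (𝓞 K)).map _).map _ = ((I : Ideal (𝓞 K)).map _).map _
  rw [Ideal.map_map, Ideal.map_map]
  congr 1
  refine RingHom.ext fun t => RingOfIntegers.ext ?_
  exact (h (t : K)).symm

variable (p n) in
include p n in
/-- The restriction to `K` and its exponent. -/
theorem exists_restrict (σ : L ≃ₐ[ℚ] L) : ∃ σ₀ : K ≃ₐ[ℚ] K,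
    (∀ z, σ (algebraMap K L z) = algebraMap K L (σ₀ z)) ∧
      ((expo p σ₀ : ℕ) : ZMod p) = (expo (p ^ (n + 1)) σ : ZMod p) := by
  haveI : IsScalarTower ℚ K L := IsScalarTower.of_algebraMap_eq' (Subsingleton.elim _ _)
  haveI : IsGalois ℚ K := IsCyclotomicExtension.isGalois {p} ℚ K
  refine ⟨σ.restrictNormal K, fun z => (σ.restrictNormal_commutes K z).symm, ?_⟩
  have hz := IsCyclotomicExtension.zeta_spec p ℚ K
  set z := IsCyclotomicExtension.zeta p ℚ K
  have h1 := congrArg (algebraMap K L)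
    (IsCyclotomicExtension.Rat.galEquivZMod_apply_of_pow_eq p K (σ.restrictNormal K) hz.pow_eq_one)
  rw [σ.restrictNormal_commutes K z, map_pow,
    IsCyclotomicExtension.Rat.galEquivZMod_apply_of_pow_eq (p ^ (n + 1)) L σ
      (x := algebraMap K L z) (by
        rw [← map_pow, pow_succ', pow_mul, hz.pow_eq_one, one_pow, map_one])] at h1
  have hzL := hz.map_of_injective (algebraMap K L).injective
  refine ((ZMod.natCast_eq_natCast_iff _ _ p).2 ?_).symm
  have h2 := (hzL.isOfFinOrder (NeZero.ne p)).pow_eq_pow_iff_modEq.1 h1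
  rwa [← hzL.eq_orderOf] at h2

variable (p n) in
include p n in
/-- Every automorphism of `K` has a tame lift. -/
theorem exists_tame_lift (σ₀ : K ≃ₐ[ℚ] K) : ∃ σ : L ≃ₐ[ℚ] L, σ ^ (p - 1) = 1 ∧
    ∀ z, σ (algebraMap K L z) = algebraMap K L (σ₀ z) := by
  haveI : IsScalarTower ℚ K L := IsScalarTower.of_algebraMap_eq' (Subsingleton.elim _ _)
  haveI : IsGalois ℚ L := IsCyclotomicExtension.isGalois {p ^ (n + 1)} ℚ L
  have hcardK : σ₀ ^ (p - 1) = 1 := by
    haveI : IsGalois ℚ K := IsCyclotomicExtension.isGalois {p} ℚ K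
    rw [← Nat.totient_prime hp.out, ← IsCyclotomicExtension.Rat.finrank p K,
      ← IsGalois.card_aut_eq_finrank]
    exact pow_card_eq_one'
  refine ⟨σ₀.liftNormal L ^ p ^ n, ?_, ?_⟩
  · rw [← pow_mul, ← Nat.totient_prime_pow_succ hp.out,
      ← IsCyclotomicExtension.Rat.finrank (p ^ (n + 1)) L, ← IsGalois.card_aut_eq_finrank]
    exact pow_card_eq_one'
  · intro z
    have key : ∀ j : ℕ, ∀ z, (σ₀.liftNormal L ^ j) (algebraMap K L z) =
        algebraMap K L ((σ₀ ^ j) z) := fun j => by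
      induction j with
      | zero => intro z; rfl
      | succ j ih =>
        intro z
        rw [pow_succ, AlgEquiv.mul_apply, AlgEquiv.liftNormal_commutes, ih, ← AlgEquiv.mul_apply,
          ← pow_succ]
    rw [key]
    obtain ⟨j, hj⟩ := Nat.sub_one_dvd_pow_sub_one p n
    rw [show p ^ n = (p - 1) * j + 1 by
      have := Nat.one_le_pow n p hp.out.pos; omega, pow_succ, pow_mul, hcardK, one_pow, one_mul]

variable {i : ℕ}

variable (n) in
/-- The extension respects the weights. -/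
theorem extendedHom_mem_wPart {y : ClassGroup (𝓞 K)} (hy : y ∈ wPart p p K i) :
    ClassGroup.extendedHom (𝓞 K) (𝓞 L) y ∈ wPart p (p ^ (n + 1)) L i := by
  set N := pLvl p K + pLvl p L
  obtain ⟨hy1, hy2⟩ := (mem_wPart_iff (N := N) (by omega)).1 hy
  refine (mem_wPart_iff (N := N) (by omega)).2 ⟨by rw [← map_pow, hy1, map_one], fun σ hσ => ?_⟩
  obtain ⟨σ₀, hσ₀, hexp⟩ := exists_restrict p n (K := K) σ
  have hσ₀1 : σ₀ ^ (p - 1) = 1 := by
    haveI : IsGalois ℚ K := IsCyclotomicExtension.isGalois {p} ℚ K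
    rw [← Nat.totient_prime hp.out, ← IsCyclotomicExtension.Rat.finrank p K,
      ← IsGalois.card_aut_eq_finrank]
    exact pow_card_eq_one'
  rw [← extendedHom_actCl hσ₀ y, hy2 σ₀ hσ₀1, map_pow]
  exact pow_pow_congr (w := N + 1) (by rw [← map_pow, hy1, map_one]) hexp i le_rfl le_rfl

variable (p n) in
include p n in
/-- `K` and `L` are CM fields. -/
theorem isCMField_levels (hp2 : p ≠ 2) : IsCMField K ∧ IsCMField L := by
  have h2 : 2 < p := lt_of_le_of_ne hp.out.two_le (Ne.symm hp2)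
  exact ⟨IsCyclotomicExtension.Rat.isCMField K (S := {p}) ⟨p, rfl, h2⟩,
    IsCyclotomicExtension.Rat.isCMField L (S := {p ^ (n + 1)})
      ⟨_, rfl, h2.trans_le (Nat.le_self_pow n.succ_ne_zero p)⟩⟩

variable (n) in
include n in
/-- **No class of odd weight becomes principal.** -/
theorem extended_injective (hp2 : p ≠ 2) (hi : Odd i) {y : ClassGroup (𝓞 K)}
    (hy : y ∈ wPart p p K i) (h1 : ClassGroup.extendedHom (𝓞 K) (𝓞 L) y = 1) : y = 1 := by
  obtain ⟨_, _⟩ := isCMField_levels p n (K := K) (L := L) hp2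
  exact FA.ClassField94.minus_injective (p := p) n hp2
    (conjClass_eq_inv_of_mem hp2 dvd_rfl hi hy) h1

variable (p n) in
include p n in
/-- Every root of unity of `K` is a norm. -/
theorem exists_normU_eq_torsion (hp2 : p ≠ 2) {η : (𝓞 K)ˣ} (hη : η ∈ Units.torsion K) :
    ∃ ξ : (𝓞 L)ˣ, normU K ξ = η := by
  haveI : IsGalois K L := FA.ClassField94.isGalois_tower (p := p) (n := n)
  have hodd : Odd p := hp.out.odd_of_ne_two hp2
  have hdeg := FA.ClassField94.finrank_tower (p := p) (n := n) (K := K) (L := L)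
  have hζ := IsCyclotomicExtension.zeta_spec (p ^ (n + 1)) ℚ L
  set ζ := IsCyclotomicExtension.zeta (p ^ (n + 1)) ℚ L
  obtain ⟨σ, hσζ, hσ, hord⟩ := FA.ClassField94.exists_tower_generator (K := K) hp2 hζ
  obtain ⟨zu, hzu⟩ := hζ.toInteger_isPrimitiveRoot.isUnit (NeZero.ne _)
  have hactk : ∀ k : ℕ, (σ ^ k) ζ = ζ ^ (p + 1) ^ k := fun k => by
    induction k with
    | zero => simp
    | succ k ih => rw [pow_succ, AlgEquiv.mul_apply, hσζ, map_pow, ih, ← pow_mul, ← pow_succ]
  obtain ⟨s, hs, hps⟩ := FA.ClassField94.exists_geomSum_eq (p := p) hp2 n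
  have hN : algebraMap K L ((normU K zu : 𝓞 K) : K) = ζ ^ (p ^ n * s) := by
    rw [FA.CycloTower.normU_coe, Algebra.norm_eq_prod_automorphisms, hzu, ← hs,
      ← Finset.prod_pow_eq_pow_sum]
    refine (Finset.prod_bij (fun k _ => σ ^ k) (fun k _ => Finset.mem_univ _)
      (fun a ha b hb h => ?_) (fun g _ => ?_) fun k _ => ?_).symm
    · rw [Finset.mem_range, ← hord] at ha hb
      exact pow_injOn_Iio_orderOf ha hb h
    · obtain ⟨j, rfl⟩ := mem_powers_iff_mem_zpowers.mpr (hσ g)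
      exact ⟨j % p ^ n, Finset.mem_range.mpr (Nat.mod_lt _ (pow_pos hp.out.pos n)),
        by rw [← hord]; exact pow_mod_orderOf σ j⟩
    · exact (hactk k).symm
  have hw : IsPrimitiveRoot ((normU K zu : 𝓞 K) : K) p := by
    refine IsPrimitiveRoot.of_map_of_injective (f := algebraMap K L) ?_ (algebraMap K L).injective
    rw [hN, pow_mul]
    exact (hζ.pow (pow_pos hp.out.pos _) (pow_succ p n)).pow_of_coprime s
      ((hp.out.coprime_iff_not_dvd.2 hps).symm)
  obtain ⟨r, hr⟩ := FA.Ext.torsion_eq_neg_zeta_pow K p hp2 hη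
  obtain ⟨j, -, hj⟩ := hw.eq_pow_of_pow_eq_one
    (ξ := IsCyclotomicExtension.zeta p ℚ K)
    (IsCyclotomicExtension.zeta_spec p ℚ K).pow_eq_one
  refine ⟨((-1) * zu ^ j) ^ r, Units.ext (RingOfIntegers.ext ?_)⟩
  have hneg : ((normU K (-1 : (𝓞 L)ˣ) : 𝓞 K) : K) = -1 := by
    rw [FA.CycloTower.normU_coe]
    show Algebra.norm K (-1 : L) = -1
    rw [show (-1 : L) = algebraMap K L (-1) by simp, Algebra.norm_algebraMap, hdeg,
      hodd.pow.neg_one_pow]
  rw [hr, map_pow, map_mul, map_pow]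
  simp only [Units.val_pow_eq_pow_val, Units.val_mul, map_pow, map_mul, hneg, hj, map_neg,
    neg_one_mul]
  rfl

variable (p n) in
include p n in
/-- A fixed class of odd weight gives an extended class. -/
theorem mem_range_of_fixed_weight (hp2 : p ≠ 2) (hi : Odd i) {x : ClassGroup (𝓞 L)}
    (hx : x ∈ wPart p (p ^ (n + 1)) L i) (hfix : ∀ g : L ≃ₐ[K] L, actCl g x = x) :
    x ∈ (ClassGroup.extendedHom (𝓞 K) (𝓞 L)).range := by
  obtain ⟨_, _⟩ := isCMField_levels p n (K := K) (L := L) hp2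
  haveI : IsGalois K L := FA.ClassField94.isGalois_tower (p := p) (n := n)
  have hζ := IsCyclotomicExtension.zeta_spec (p ^ (n + 1)) ℚ L
  set ζ := IsCyclotomicExtension.zeta (p ^ (n + 1)) ℚ L
  obtain ⟨σ, -, hσ, -⟩ := FA.ClassField94.exists_tower_generator (K := K) hp2 hζ
  have hlam : Prime (hζ.toInteger - 1) := hζ.zeta_sub_one_prime
  have hπ : (Ideal.span {hζ.toInteger - 1}).IsMaximal :=
    ((Ideal.span_singleton_prime hlam.ne_zero).mpr hlam).isMaximal
      fun e => hlam.ne_zero (Ideal.span_singleton_eq_bot.mp e)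
  have hπfix : ∀ g : L ≃ₐ[K] L,
      g • Ideal.span {hζ.toInteger - 1} = Ideal.span {hζ.toInteger - 1} := fun g => by
    set a := expo (p ^ (n + 1)) (g.restrictScalars ℚ)
    have hga : g • hζ.toInteger = hζ.toInteger ^ a := RingOfIntegers.ext
      (IsCyclotomicExtension.Rat.galEquivZMod_apply_of_pow_eq (p ^ (n + 1)) L
        (g.restrictScalars ℚ) hζ.pow_eq_one)
    obtain ⟨w, -, hw⟩ := FA.CycloTower.exists_levelUnit hζ.toInteger_isPrimitiveRoot
      (not_dvd_expo (p := p) (dvd_level (n := n)) (g.restrictScalars ℚ))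
    rw [FA.CycloTower.smul_span, smul_sub, smul_one, hga, ← hw,
      Ideal.span_singleton_mul_left_unit w.isUnit]
  have hsq := FA.IwasawaStructure.sq_div_pow_mem_range_of_fixed hσ hπ hπfix
    (fun P _ hP hπP => FA.CycloTower.ramificationIdx_eq_one hζ hP hπP)
    (fun η hη => exists_normU_eq_torsion p n hp2 hη)
    ((hp.out.odd_of_ne_two hp2).pow (n := n))
    (FA.ClassField94.finrank_tower (p := p) (n := n) (K := K) (L := L))
    (conjClass_eq_inv_of_mem hp2 dvd_level hi hx) (hfix σ)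
  have hcop : IsCoprime ((2 : ℤ) - (p : ℤ) ^ n) ((p ^ pLvl p L : ℕ) : ℤ) := by
    rw [Nat.cast_pow]
    refine IsCoprime.pow_right ((Nat.prime_iff_prime_int.1 hp.out).coprime_iff_not_dvd.2 ?_).symm
    intro hd
    rcases Nat.eq_zero_or_pos n with rfl | hn
    · exact (Nat.prime_iff_prime_int.1 hp.out).not_dvd_one (by simpa using hd)
    · have h2 : (p : ℤ) ∣ 2 := by simpa using hd.add (dvd_pow_self (p : ℤ) hn.ne')
      exact hp2 ((Nat.prime_dvd_prime_iff_eq hp.out Nat.prime_two).1 (by exact_mod_cast h2))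
  obtain ⟨u, v, huv⟩ := hcop
  have h := Subgroup.zpow_mem _ hsq u
  rw [← zpow_natCast, ← zpow_natCast, ← zpow_neg, ← zpow_add, ← zpow_mul] at h
  convert h using 1
  conv_lhs => rw [← zpow_one x, ← huv, zpow_add, mul_comm v, zpow_mul x _ v, zpow_natCast,
    hx.1, one_zpow, mul_one]
  congr 1
  push_cast
  ring

end FA.IwasawaControl
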