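import Fermat.Agent.IwasawaStructure.Semisimple
import Fermat.Agent.GaussKolyvagin.Equality

/-!
# The weight parts of the class group of `ℚ(ζ_m)`

`p ∣ m`. A class `x` of `p`-power order has weight `ω ^ i` if every automorphism `σ` with
`σ ^ (p - 1) = 1` sends it to `x ^ (a(σ) ^ (i p ^ N))`, `p ^ N` killing the `p`-part.

* `wPart`: the classes of weight `ω ^ i`; `mem_wPart_iff`: independence of `N`;
* `wProj`: the projection on this part, equivariant for the Galois group.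
-/

set_option autoImplicit false
set_option linter.unusedSectionVars false
set_option linter.style.haveILetI false

noncomputable section

open NumberField NumberField.IsCMField
open scoped Classical

namespace FA.IwasawaControl

open FA.CycloTower (actCl)
open FA.IwasawaStructure (expo coprime_expo)
open FA.GaussKolyvagin (pow_prime_pow_stable)
open FA.HerbrandRibet (natCast_pow_congr)

variable {p : ℕ} [hp : Fact p.Prime]

/-- Congruent bases give equal powers of `p`-power exponents on elements killed by `p ^ w`. -/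
theorem pow_pow_congr {G : Type*} [Monoid G] {x : G} {w : ℕ} (hx : x ^ p ^ w = 1) {a b : ℕ}
    (hab : (a : ZMod p) = b) (i : ℕ) {s t : ℕ} (hs : w ≤ s + 1) (ht : w ≤ t + 1) :
    x ^ a ^ (i * p ^ s) = x ^ b ^ (i * p ^ t) := by
  rcases Nat.eq_zero_or_pos w with rfl | hw
  · rw [pow_zero, pow_one] at hx
    rw [hx, one_pow, one_pow]
  refine pow_eq_pow_of_modEq ((ZMod.natCast_eq_natCast_iff _ _ (p ^ w)).1 ?_) hx
  rw [Nat.cast_pow, Nat.cast_pow, mul_comm i, mul_comm i, pow_mul, pow_mul]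
  congr 1
  have h1 : ((a : ℕ) : ZMod (p ^ w)) ^ p ^ (w - 1) = (b : ZMod (p ^ w)) ^ p ^ (w - 1) :=
    natCast_pow_congr hw hab
  rw [pow_prime_pow_stable (t := w - 1) hs (by omega), h1,
    pow_prime_pow_stable (t := t) (by omega) ht]

section field

variable {m : ℕ} [NeZero m] {L : Type} [Field L] [NumberField L]
  [IsCyclotomicExtension {m} ℚ L]

variable (p L) in
/-- The exponent of the `p`-part of the classes. -/
def pLvl : ℕ := padicValNat p (classNumber L)

omit [NeZero m] [IsCyclotomicExtension {m} ℚ L] in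
theorem pow_pLvl {x : ClassGroup (𝓞 L)} {j : ℕ} (hx : x ^ p ^ j = 1) : x ^ p ^ pLvl p L = 1 := by
  obtain ⟨e, -, he⟩ := (Nat.dvd_prime_pow hp.out).1 (orderOf_dvd_of_pow_eq_one hx)
  have h1 : p ^ e ∣ classNumber L := he ▸ orderOf_dvd_card
  refine orderOf_dvd_iff_pow_eq_one.1 (he ▸ pow_dvd_pow p ?_)
  exact (padicValNat_dvd_iff_le (classNumber_pos L).ne').1 h1

/-- The exponents of a product. -/
theorem expo_mul_cast (hpm : p ∣ m) (σ τ : L ≃ₐ[ℚ] L) :
    ((expo m (σ * τ) : ℕ) : ZMod p) = (expo m σ : ZMod p) * (expo m τ : ZMod p) := by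
  simp only [expo, map_mul, Units.val_mul, ← ZMod.castHom_apply (h := hpm) (R := ZMod p),
    ZMod.natCast_val]

theorem expo_one_cast (hpm : p ∣ m) : ((expo m (1 : L ≃ₐ[ℚ] L) : ℕ) : ZMod p) = 1 := by
  simp only [expo, map_one, Units.val_one, ← ZMod.castHom_apply (h := hpm) (R := ZMod p),
    ZMod.natCast_val]

theorem not_dvd_expo (hpm : p ∣ m) (σ : L ≃ₐ[ℚ] L) : ¬ p ∣ expo m σ := fun h =>
  hp.out.ne_one (Nat.eq_one_of_dvd_coprimes (coprime_expo σ) h hpm)

variable (m) in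
include m in
theorem gal_comm (σ τ : L ≃ₐ[ℚ] L) : σ * τ = τ * σ :=
  (IsCyclotomicExtension.Rat.galEquivZMod m L).injective (by rw [map_mul, map_mul, mul_comm])

variable (m) in
include m in
theorem actCl_comm (σ τ : L ≃ₐ[ℚ] L) (x : ClassGroup (𝓞 L)) :
    actCl σ (actCl τ x) = actCl τ (actCl σ x) := by
  rw [← MulAut.mul_apply, ← map_mul, gal_comm m, map_mul, MulAut.mul_apply]

variable (p m L) in
/-- The classes of weight `ω ^ i`. -/
def wPart (i : ℕ) : Subgroup (ClassGroup (𝓞 L)) where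
  carrier := {x | x ^ p ^ pLvl p L = 1 ∧ ∀ σ : L ≃ₐ[ℚ] L, σ ^ (p - 1) = 1 →
    actCl σ x = x ^ (expo m σ) ^ (i * p ^ pLvl p L)}
  one_mem' := ⟨one_pow _, fun σ _ => by rw [map_one, one_pow]⟩
  mul_mem' {x y} hx hy := ⟨by rw [mul_pow, hx.1, hy.1, one_mul], fun σ hσ => by
    rw [map_mul, hx.2 σ hσ, hy.2 σ hσ, mul_pow]⟩
  inv_mem' {x} hx := ⟨by rw [inv_pow, hx.1, inv_one], fun σ hσ => by
    rw [map_inv, hx.2 σ hσ, inv_pow]⟩

/-- **The weight does not depend on the exponent.** -/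
theorem mem_wPart_iff {i N : ℕ} (hN : pLvl p L ≤ N + 1) {x : ClassGroup (𝓞 L)} :
    x ∈ wPart p m L i ↔ x ^ p ^ (N + 1) = 1 ∧ ∀ σ : L ≃ₐ[ℚ] L, σ ^ (p - 1) = 1 →
      actCl σ x = x ^ (expo m σ) ^ (i * p ^ N) := by
  constructor
  · rintro ⟨hx, hσ⟩
    refine ⟨?_, fun σ h => ?_⟩
    · obtain ⟨c, hc⟩ := pow_dvd_pow p hN
      rw [hc, pow_mul, hx, one_pow]
    · rw [hσ σ h]
      exact pow_pow_congr hx rfl i (by omega) hN
  · rintro ⟨hx, hσ⟩
    have hx' := pow_pLvl hx
    refine ⟨hx', fun σ h => ?_⟩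
    rw [hσ σ h]
    exact pow_pow_congr hx' rfl i hN (by omega)

include m in
/-- The weight parts are stable. -/
theorem actCl_mem_wPart {i : ℕ} (τ : L ≃ₐ[ℚ] L) {x : ClassGroup (𝓞 L)}
    (hx : x ∈ wPart p m L i) : actCl τ x ∈ wPart p m L i :=
  ⟨by rw [← map_pow, hx.1, map_one], fun σ hσ => by
    rw [actCl_comm m, hx.2 σ hσ, map_pow]⟩

variable (p L) in
/-- An exponent killing the classes of order prime to `p`, `1` on the `p`-part. -/
theorem exists_pExp : ∃ c : ℕ, (c ≡ 1 [MOD p ^ (pLvl p L + 1)]) ∧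
    ∀ x : ClassGroup (𝓞 L), (x ^ c) ^ p ^ pLvl p L = 1 := by
  obtain ⟨q, hq⟩ : p ^ pLvl p L ∣ classNumber L := pow_padicValNat_dvd
  have hqp : ¬ p ∣ q := fun h => by
    have h1 : p ^ (pLvl p L + 1) ∣ classNumber L := by rw [hq, pow_succ]; exact mul_dvd_mul_left _ h
    rw [padicValNat_dvd_iff_le (classNumber_pos L).ne'] at h1
    simp only [pLvl] at h1
    omega
  set M := p ^ (pLvl p L + 1)
  haveI : NeZero M := ⟨pow_ne_zero _ hp.out.ne_zero⟩
  refine ⟨q * ((q : ZMod M)⁻¹).val, ?_, fun x => ?_⟩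
  · rw [← ZMod.natCast_eq_natCast_iff, Nat.cast_mul, ZMod.natCast_zmod_val, Nat.cast_one,
      ZMod.coe_mul_inv_eq_one]
    exact ((hp.out.coprime_iff_not_dvd.2 hqp).pow_left _).symm
  · rw [← pow_mul, show q * ((q : ZMod M)⁻¹).val * p ^ pLvl p L =
      classNumber L * ((q : ZMod M)⁻¹).val by rw [hq]; ring, pow_mul]
    exact (congrArg (· ^ _) pow_card_eq_one).trans (one_pow _)

variable (p L) in
/-- The automorphisms of order dividing `p - 1`. -/
def tame : Finset (L ≃ₐ[ℚ] L) := Finset.univ.filter fun σ => σ ^ (p - 1) = 1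

omit [NeZero m] [IsCyclotomicExtension {m} ℚ L] in
theorem mem_tame {σ : L ≃ₐ[ℚ] L} : σ ∈ tame p L ↔ σ ^ (p - 1) = 1 := by
  simp [tame]

variable (m) in
include m in
theorem not_dvd_card_tame : ¬ p ∣ (tame p L).card := by
  intro h
  let H : Subgroup (L ≃ₐ[ℚ] L) :=
    { carrier := {σ | σ ^ (p - 1) = 1}
      one_mem' := one_pow _
      mul_mem' := fun {a b} ha hb => by
        show (a * b) ^ (p - 1) = 1
        rw [(show Commute a b from gal_comm m a b).mul_pow, ha, hb, one_mul]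
      inv_mem' := fun {a} ha => by
        show a⁻¹ ^ (p - 1) = 1
        rw [inv_pow, ha, inv_one] }
  have hcard : Nat.card H = (tame p L).card := by
    rw [← Nat.card_eq_finsetCard]
    exact Nat.card_congr (Equiv.subtypeEquivRight fun σ => mem_tame.symm)
  obtain ⟨z, hz⟩ := exists_prime_orderOf_dvd_card' p (G := H) (hcard ▸ h)
  have h1 : (z : L ≃ₐ[ℚ] L) ^ (p - 1) = 1 := z.2
  have h2 := orderOf_dvd_of_pow_eq_one h1
  rw [Subgroup.orderOf_coe, hz] at h2
  have := hp.out.two_le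
  have := Nat.le_of_dvd (by omega) h2
  omega

variable (p m L) in
/-- The projection on the weight `ω ^ i`. -/
def wProj (i : ℕ) : ClassGroup (𝓞 L) →* ClassGroup (𝓞 L) where
  toFun x := ∏ σ ∈ tame p L, actCl σ x ^ ((exists_pExp p L).choose *
    ((((tame p L).card : ℕ) : ZMod (p ^ (pLvl p L + 1)))⁻¹).val *
      (expo m σ⁻¹) ^ (i * p ^ pLvl p L))
  map_one' := Finset.prod_eq_one fun σ _ => by rw [map_one, one_pow]
  map_mul' x y := by
    rw [← Finset.prod_mul_distrib]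
    exact Finset.prod_congr rfl fun σ _ => by rw [map_mul, mul_pow]

include m in
theorem wProj_mem (hpm : p ∣ m) (i : ℕ) (x : ClassGroup (𝓞 L)) :
    wProj p m L i x ∈ wPart p m L i := by
  set c := (exists_pExp p L).choose with hc
  have hkill : ∀ (y : ClassGroup (𝓞 L)) (a b : ℕ), (y ^ (c * a * b)) ^ p ^ pLvl p L = 1 :=
    fun y a b => by
      rw [mul_assoc, mul_comm c, pow_mul]
      exact (exists_pExp p L).choose_spec.2 _
  refine ⟨?_, fun τ hτ => ?_⟩
  · simp only [wProj, MonoidHom.coe_mk, OneHom.coe_mk]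
    rw [← Finset.prod_pow]
    exact Finset.prod_eq_one fun σ _ => hkill _ _ _
  simp only [wProj, MonoidHom.coe_mk, OneHom.coe_mk]
  rw [map_prod, ← Finset.prod_pow]
  refine Finset.prod_bij (fun σ _ => τ * σ) (fun σ hσ => ?_) (fun a _ b _ h => mul_left_cancel h)
    (fun σ hσ => ⟨τ⁻¹ * σ, ?_, mul_inv_cancel_left τ σ⟩) fun σ _ => ?_
  · rw [mem_tame, (show Commute τ σ from gal_comm m τ σ).mul_pow, hτ, mem_tame.1 hσ,
      one_mul]
  · rw [mem_tame, (show Commute τ⁻¹ σ from gal_comm m _ _).mul_pow, inv_pow, hτ, inv_one,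
      one_mul, mem_tame.1 hσ]
  · rw [map_pow, ← MulAut.mul_apply, ← map_mul, ← pow_mul, mul_assoc (c * _), ← mul_pow,
      mul_assoc c, mul_assoc c, pow_mul, pow_mul _ c]
    conv_rhs => rw [mul_comm, pow_mul]
    conv_lhs => rw [mul_comm, pow_mul]
    congr 1
    refine pow_pow_congr (w := pLvl p L) ((exists_pExp p L).choose_spec.2 _) ?_ i (by omega)
      (by omega)
    rw [Nat.cast_mul, mul_inv_rev, expo_mul_cast hpm, mul_assoc]
    conv_rhs => rw [← expo_mul_cast hpm, inv_mul_cancel, expo_one_cast hpm, mul_one]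

include m in
theorem wProj_of_mem (hpm : p ∣ m) {i : ℕ} {x : ClassGroup (𝓞 L)} (hx : x ∈ wPart p m L i) :
    wProj p m L i x = x := by
  set c := (exists_pExp p L).choose
  set M := p ^ (pLvl p L + 1)
  haveI : NeZero M := ⟨pow_ne_zero _ hp.out.ne_zero⟩
  set s := ((((tame p L).card : ℕ) : ZMod M)⁻¹).val
  simp only [wProj, MonoidHom.coe_mk, OneHom.coe_mk]
  have key : ∀ σ ∈ tame p L, actCl σ x ^ (c * s * (expo m σ⁻¹) ^ (i * p ^ pLvl p L)) =
      x ^ (c * s) := fun σ hσ => by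
    rw [hx.2 σ (mem_tame.1 hσ), ← pow_mul, mul_left_comm, pow_mul, ← mul_pow]
    rw [pow_pow_congr (b := 1) (t := pLvl p L) (x := x ^ (c * s))
      (by rw [← pow_mul, mul_comm, pow_mul, hx.1, one_pow]) ?_ i (by omega) (by omega),
      one_pow, pow_one]
    rw [Nat.cast_mul, ← expo_mul_cast hpm, mul_inv_cancel, expo_one_cast hpm, Nat.cast_one]
  rw [Finset.prod_congr rfl key, Finset.prod_const, ← pow_mul]
  obtain ⟨hc, -⟩ := (exists_pExp p L).choose_spec
  conv_rhs => rw [← pow_one x]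
  refine pow_eq_pow_of_modEq ?_ hx.1
  refine Nat.ModEq.of_dvd (pow_dvd_pow p (Nat.le_succ _)) ?_
  rw [← ZMod.natCast_eq_natCast_iff] at hc ⊢
  rw [Nat.cast_mul, Nat.cast_mul, hc, Nat.cast_one, one_mul, ZMod.natCast_zmod_val, mul_comm,
    ZMod.coe_mul_inv_eq_one]
  exact ((hp.out.coprime_iff_not_dvd.2 (not_dvd_card_tame m)).pow_left _).symm

include m in
theorem wProj_actCl (i : ℕ) (τ : L ≃ₐ[ℚ] L) (x : ClassGroup (𝓞 L)) :
    wProj p m L i (actCl τ x) = actCl τ (wProj p m L i x) := by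
  simp only [wProj, MonoidHom.coe_mk, OneHom.coe_mk, map_prod, map_pow]
  exact Finset.prod_congr rfl fun σ _ => by rw [actCl_comm m]

/-- Complex conjugation inverts the odd parts. -/
theorem conjClass_eq_inv_of_mem [IsCMField L] (hp2 : p ≠ 2) (hpm : p ∣ m) {i : ℕ} (hi : Odd i)
    {x : ClassGroup (𝓞 L)} (hx : x ∈ wPart p m L i) :
    FA.ClassField94.conjClass L x = x⁻¹ := by
  set cσ : L ≃ₐ[ℚ] L := (complexConj L).restrictScalars ℚ with hcσ
  have hc2 : cσ ^ 2 = 1 := by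
    rw [pow_two]
    exact AlgEquiv.ext fun y => IsCMField.complexConj_apply_apply L y
  have hct : cσ ^ (p - 1) = 1 := by
    obtain ⟨d, hd⟩ : 2 ∣ p - 1 := ((hp.out.odd_of_ne_two hp2).tsub_odd odd_one).two_dvd
    rw [hd, pow_mul, hc2, one_pow]
  have e : actCl cσ x = FA.ClassField94.conjClass L x := by
    rw [← FA.IwasawaStructure.classAut_eq_actCl, FA.IwasawaStructure.classAut,
      FA.ClassField94.conjClass]
    congr 2
  have hexp : ((expo m cσ : ℕ) : ZMod p) = ((p - 1 : ℕ) : ZMod p) := by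
    have hz := IsCyclotomicExtension.zeta_spec m ℚ L
    set z := IsCyclotomicExtension.zeta m ℚ L
    have h1 : cσ z = z⁻¹ := by
      let φ : L →+* ℂ := Classical.choice (inferInstance : Nonempty _)
      refine φ.injective ?_
      show φ (complexConj L z) = _
      rw [IsCMField.complexEmbedding_complexConj, map_inv₀,
        Complex.inv_eq_conj (Complex.norm_eq_one_of_pow_eq_one (n := m)
          (by rw [← map_pow, hz.pow_eq_one, map_one]) (NeZero.ne m))]
    have h2 : z ^ (expo m cσ + 1) = 1 := by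
      rw [pow_succ, expo, ← IsCyclotomicExtension.Rat.galEquivZMod_apply_of_pow_eq m L cσ
        hz.pow_eq_one, h1, inv_mul_cancel₀ (hz.ne_zero (NeZero.ne m))]
    have h3 : ((expo m cσ + 1 : ℕ) : ZMod p) = 0 :=
      (ZMod.natCast_eq_zero_iff _ _).2 (hpm.trans (hz.dvd_of_pow_eq_one _ h2))
    rw [Nat.cast_add, Nat.cast_one] at h3
    rw [eq_neg_of_add_eq_zero_left h3, Nat.cast_sub hp.out.one_le, ZMod.natCast_self, Nat.cast_one,
      zero_sub]
  rw [← e, hx.2 cσ hct, pow_pow_congr (b := p - 1) hx.1 hexp i (t := pLvl p L) (by omega)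
    (by omega)]
  refine eq_inv_of_mul_eq_one_left ?_
  rw [← pow_succ]
  refine orderOf_dvd_iff_pow_eq_one.1 ((orderOf_dvd_of_pow_eq_one hx.1).trans ?_)
  rw [← ZMod.natCast_eq_zero_iff, Nat.cast_add, Nat.cast_pow, Nat.cast_one,
    mul_comm i, pow_mul]
  rcases Nat.eq_zero_or_pos (pLvl p L) with h0 | h0
  · haveI : Subsingleton (ZMod (p ^ pLvl p L)) := by rw [h0, pow_zero]; infer_instance
    exact Subsingleton.elim _ _
  obtain ⟨s, hs⟩ : ∃ s, pLvl p L = s + 1 := ⟨_, (Nat.sub_add_cancel h0).symm⟩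
  have h1 : ((p - 1 : ℕ) : ZMod (p ^ pLvl p L)) ^ p ^ (pLvl p L - 1) =
      ((p ^ pLvl p L - 1 : ℕ) : ZMod (p ^ pLvl p L)) ^ p ^ (pLvl p L - 1) :=
    natCast_pow_congr h0 (by
      rw [Nat.cast_sub hp.out.one_le, Nat.cast_sub (Nat.one_le_pow _ _ hp.out.pos), Nat.cast_pow,
        ZMod.natCast_self, zero_pow h0.ne'])
  rw [pow_prime_pow_stable (s := pLvl p L) (t := pLvl p L - 1) (by omega) (by omega), h1,
    Nat.cast_sub (Nat.one_le_pow _ _ hp.out.pos), ZMod.natCast_self, Nat.cast_one, zero_sub,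
    (hp.out.odd_of_ne_two hp2).pow.neg_one_pow, hi.neg_one_pow, neg_add_cancel]

end field

end FA.IwasawaControl
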